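import Fermat.Agent.Jac.Alg.Bounded
import Mathlib.RingTheory.PicardGroup
import Mathlib.RingTheory.TensorProduct.Quotient
import Mathlib.RingTheory.Artinian.Module
import Mathlib.LinearAlgebra.Dimension.Constructions

/-!
# Dimensions of fibres of invertible modules along finite subschemes
-/

set_option autoImplicit false

universe u

noncomputable section

open TensorProduct

namespace Fermat.Agent.Jac

theorem nonempty_quot_smul_equiv {K S M : Type u} [Field K] [CommRing S] [Algebra K S]
    [AddCommGroup M] [Module S M] [Module.Invertible S M] (I : Ideal S) [Module.Finite K (S ⧸ I)] :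
    Nonempty ((S ⧸ I) ≃ₗ[S] M ⧸ I • (⊤ : Submodule S M)) := by
  have : IsArtinianRing (S ⧸ I) := IsArtinianRing.of_finite K (S ⧸ I)
  have : Module.Invertible (S ⧸ I) ((S ⧸ I) ⊗[S] M) := inferInstance
  obtain ⟨e⟩ := (Module.Invertible.free_iff_linearEquiv (R := S ⧸ I)
    (M := (S ⧸ I) ⊗[S] M)).mp inferInstance
  exact ⟨(e.restrictScalars S).symm ≪≫ₗ TensorProduct.quotTensorEquivQuotSMul M I⟩

theorem finite_quot_smul {K S M : Type u} [Field K] [CommRing S] [Algebra K S]
    [AddCommGroup M] [Module S M] [Module K M] [IsScalarTower K S M] [Module.Invertible S M]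
    (I : Ideal S) [Module.Finite K (S ⧸ I)] :
    Module.Finite K (M ⧸ (I • (⊤ : Submodule S M)).restrictScalars K) := by
  obtain ⟨e⟩ := nonempty_quot_smul_equiv (K := K) (M := M) I
  exact Module.Finite.equiv (e.restrictScalars K ≪≫ₗ
    (Submodule.Quotient.restrictScalarsEquiv K _).symm)

theorem finrank_quot_smul {K S M : Type u} [Field K] [CommRing S] [Algebra K S]
    [AddCommGroup M] [Module S M] [Module K M] [IsScalarTower K S M] [Module.Invertible S M]
    (I : Ideal S) [Module.Finite K (S ⧸ I)] :
    Module.finrank K (M ⧸ (I • (⊤ : Submodule S M)).restrictScalars K) =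
      Module.finrank K (S ⧸ I) := by
  obtain ⟨e⟩ := nonempty_quot_smul_equiv (K := K) (M := M) I
  exact ((e.restrictScalars K ≪≫ₗ (Submodule.Quotient.restrictScalarsEquiv K _).symm).finrank_eq).symm

theorem finite_quot_ker {K S : Type u} [Field K] [CommRing S] [Algebra K S] (ε : S →ₐ[K] K) :
    Module.Finite K (S ⧸ RingHom.ker ε) :=
  Module.Finite.equiv (Ideal.quotientKerAlgEquivOfSurjective (f := ε)
    fun r => ⟨algebraMap K S r, ε.commutes r⟩).symm.toLinearEquiv

theorem finrank_quot_ker {K S : Type u} [Field K] [CommRing S] [Algebra K S] (ε : S →ₐ[K] K) :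
    Module.finrank K (S ⧸ RingHom.ker ε) = 1 :=
  (Ideal.quotientKerAlgEquivOfSurjective (f := ε)
    fun r => ⟨algebraMap K S r, ε.commutes r⟩).toLinearEquiv.finrank_eq.trans
      (Module.finrank_self K)

namespace CurveData

variable {k : Type u} [Field k] (D : CurveData.{u} k)

/-- The jets at `ε` of order `< d`. -/
def jetEquiv : (Fin D.d → k) ≃ₗ[k] D.A₁ ⧸ Ideal.span {D.y} :=
  LinearEquiv.ofBijective ((Ideal.Quotient.mkₐ k (Ideal.span {D.y})).toLinearMap ∘ₗ
      Fintype.linearCombination k fun i : Fin D.d => D.t ^ (i : ℕ)) <| by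
    convert D.basis_jets using 1
    ext c
    simp [Fintype.linearCombination_apply, Algebra.smul_def]

variable (K : Type u) [Field K] [Algebra k K]

theorem span_yR_eq : Ideal.span {D.yR K} =
    (Ideal.span {D.y}).map (Algebra.TensorProduct.includeRight : D.A₁ →ₐ[k] D.AR₁ K) := by
  rw [Ideal.map_span, Set.image_singleton, Algebra.TensorProduct.includeRight_apply]

theorem finite_quot_yR : Module.Finite K (D.AR₁ K ⧸ Ideal.span {D.yR K}) := by
  have : Module.Finite k (D.A₁ ⧸ Ideal.span {D.y}) := Module.Finite.equiv D.jetEquiv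
  exact Module.Finite.equiv
    ((Algebra.TensorProduct.tensorQuotientEquiv (R := k) K D.A₁ K (Ideal.span {D.y})).trans
      (Ideal.quotientEquivAlgOfEq K (D.span_yR_eq K).symm)).toLinearEquiv

theorem finrank_quot_yR : Module.finrank K (D.AR₁ K ⧸ Ideal.span {D.yR K}) = D.d := by
  have : Module.Finite k (D.A₁ ⧸ Ideal.span {D.y}) := Module.Finite.equiv D.jetEquiv
  rw [← ((Algebra.TensorProduct.tensorQuotientEquiv (R := k) K D.A₁ K (Ideal.span {D.y})).trans
      (Ideal.quotientEquivAlgOfEq K (D.span_yR_eq K).symm)).toLinearEquiv.finrank_eq,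
    Module.finrank_baseChange, ← D.jetEquiv.finrank_eq, Module.finrank_fintype_fun_eq_card,
    Fintype.card_fin]

end CurveData

end Fermat.Agent.Jac
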