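import Fermat.Agent.Jac.Alg.BaseChange
import Fermat.Agent.Jac.Diagonal.Ideals
import Fermat.Agent.Jac.Euler.Quotients
import Mathlib.Algebra.Module.LinearMap.Index

/-!
# The Euler characteristic of line data over a field

Morphisms of line data injective on both charts change `χ` by the lengths of their cokernels.
-/

set_option autoImplicit false

universe u

noncomputable section

open TensorProduct Module

namespace Fermat.Agent.Jac.LineData

variable {k : Type u} [Field k] {D : CurveData.{u} k}

section Map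

variable {R : Type u} [CommRing R] [Algebra k R] {L' L : LineData D R}
  (gM : L'.M →ₗ[D.AR R] L.M) (gN : L'.N →ₗ[D.AR₁ R] L.N)

/-- The map on the intersection induced by a map on the second chart. -/
def mapP : L'.P →ₗ[D.BR R] L.P := gN.baseChange (D.BR R)

theorem mapP_f₁ (n : L'.N) : mapP gN (L'.f₁ n) = L.f₁ (gN n) := by
  rw [mapP, f₁_apply, LinearMap.baseChange_tmul, f₁_apply]

variable {gM gN}

theorem mapP_f₀ (hrel : ∀ j m n, L'.Rel j m n → L.Rel j (gM m) (gN n)) (m : L'.M) :
    mapP gN (L'.f₀ m) = L.f₀ (gM m) := by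
  obtain ⟨j, n, h⟩ := L'.exists_rel m
  refine (algebraMap_y_pow_ne (D := D) (R := R) j).smul_left_cancel.mp ?_
  rw [hrel j m n h, ← mapP_f₁, ← h, map_smul]

theorem δ_comp_map (hrel : ∀ j m n, L'.Rel j m n → L.Rel j (gM m) (gN n)) :
    L.δ ∘ₗ (gM.restrictScalars R).prodMap (gN.restrictScalars R) =
      (mapP gN).restrictScalars R ∘ₗ L'.δ := by
  refine LinearMap.ext fun z => ?_
  show L.δ (gM z.1, gN z.2) = mapP gN (L'.δ (z.1, z.2))
  rw [δ_apply, δ_apply, map_sub, mapP_f₀ hrel, mapP_f₁]

theorem mapP_injective (hN : Function.Injective gN) : Function.Injective (mapP gN) := by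
  have := D.flat₁ (R := R)
  exact Module.Flat.lTensor_preserves_injective_linearMap (M := D.BR R) gN hN

theorem mapP_surjective (hN : Function.Surjective gN) : Function.Surjective (mapP gN) :=
  LinearMap.lTensor_surjective (D.BR R) hN

theorem map_mem_H0 (hrel : ∀ j m n, L'.Rel j m n → L.Rel j (gM m) (gN n)) {z : L'.M × L'.N}
    (hz : z ∈ L'.H0) : (gM z.1, gN z.2) ∈ L.H0 := by
  refine LinearMap.mem_ker.mpr ((LinearMap.congr_fun (δ_comp_map hrel) z).trans ?_)
  rw [LinearMap.comp_apply, LinearMap.mem_ker.mp hz, map_zero]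

/-- The map on global sections induced by a morphism. -/
def mapH0 (hrel : ∀ j m n, L'.Rel j m n → L.Rel j (gM m) (gN n)) : L'.H0 →ₗ[R] L.H0 :=
  (((gM.restrictScalars R).prodMap (gN.restrictScalars R)) ∘ₗ L'.H0.subtype).codRestrict L.H0
    fun z => map_mem_H0 hrel z.2

theorem mapH0_apply (hrel : ∀ j m n, L'.Rel j m n → L.Rel j (gM m) (gN n)) (z : L'.H0) :
    ((mapH0 hrel z : L.H0) : L.M × L.N) = (gM z.1.1, gN z.1.2) := rfl

theorem mapH0_injective (hrel : ∀ j m n, L'.Rel j m n → L.Rel j (gM m) (gN n))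
    (hM : Function.Injective gM) (hN : Function.Injective gN) :
    Function.Injective (mapH0 hrel) := fun a b h => by
  have h' := congrArg Subtype.val h
  rw [mapH0_apply, mapH0_apply, Prod.ext_iff] at h'
  exact Subtype.ext (Prod.ext (hM h'.1) (hN h'.2))

theorem Iso.bijective_δ (e : Iso L' L) (h : Function.Bijective L'.δ) : Function.Bijective L.δ := by
  have hp : Function.Bijective ((mapP (L' := L') (L := L) e.eN.toLinearMap).restrictScalars R ∘ₗ L'.δ) :=
    Function.Bijective.comp (g := mapP (L' := L') (L := L) e.eN.toLinearMap)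
      ⟨mapP_injective e.eN.injective, mapP_surjective e.eN.surjective⟩ h
  rw [← δ_comp_map (gM := e.eM.toLinearMap) e.rel, LinearMap.coe_comp] at hp
  exact (Function.Bijective.of_comp_iff _ (e.eM.bijective.prodMap e.eN.bijective)).mp hp

theorem Iso.bijective_δ_iff (e : Iso L' L) : Function.Bijective L'.δ ↔ Function.Bijective L.δ :=
  ⟨e.bijective_δ, e.symm.bijective_δ⟩

end Map

section Field

variable {K : Type u} [Field K] [Algebra k K] (L : LineData D K)

instance finite_H0_field : Module.Finite K L.H0 := by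
  obtain ⟨W₀, hW₀, h₀⟩ := L.exists_fg_fst
  obtain ⟨W₁, hW₁, h₁⟩ := L.exists_fg_snd
  have : Module.Finite K W₀ := Module.Finite.iff_fg.mpr hW₀
  have : Module.Finite K W₁ := Module.Finite.iff_fg.mpr hW₁
  refine Module.Finite.of_injective
    ({ toFun := fun z => (⟨_, h₀ _ z.2⟩, ⟨_, h₁ _ z.2⟩)
       map_add' := fun _ _ => rfl
       map_smul' := fun _ _ => rfl } : L.H0 →ₗ[K] W₀ × W₁) fun a b h => ?_
  exact Subtype.ext (Prod.ext (congrArg (fun w => (w.1 : L.M)) h) (congrArg (fun w => (w.2 : L.N)) h))

/-- The dimension of the space of global sections. -/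
def h0 : ℕ := finrank K L.H0

/-- The dimension of the first cohomology. -/
def h1 : ℕ := finrank K L.H1

/-- The Euler characteristic. -/
def χ : ℤ := (L.h0 : ℤ) - L.h1

theorem χ_eq_index : L.χ = L.δ.index := LinearMap.index_eq_finrank_sub.symm

theorem h1_eq_zero_iff : L.h1 = 0 ↔ Function.Surjective L.δ := by
  rw [h1, finrank_eq_zero_iff_of_free, Submodule.Quotient.subsingleton_iff, LinearMap.range_eq_top]

theorem h0_eq_zero_iff : L.h0 = 0 ↔ Function.Injective L.δ := by
  rw [h0, Submodule.finrank_eq_zero]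
  exact LinearMap.ker_eq_bot

theorem χ_eq_h0 (h : Function.Surjective L.δ) : L.χ = L.h0 := by
  rw [χ, L.h1_eq_zero_iff.mpr h, Nat.cast_zero, sub_zero]

theorem bijective_δ_iff_χ : Function.Bijective L.δ ↔ Function.Surjective L.δ ∧ L.χ = 0 := by
  refine ⟨fun h => ⟨h.2, ?_⟩, fun ⟨h, h'⟩ => ⟨L.h0_eq_zero_iff.mp ?_, h⟩⟩
  · rw [L.χ_eq_h0 h.2, L.h0_eq_zero_iff.mpr h.1, Nat.cast_zero]
  · rw [L.χ_eq_h0 h] at h'
    exact_mod_cast h'

variable {L} {L' : LineData D K} {gM : L'.M →ₗ[D.AR K] L.M} {gN : L'.N →ₗ[D.AR₁ K] L.N}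

theorem h0_le_of_map (hrel : ∀ j m n, L'.Rel j m n → L.Rel j (gM m) (gN n))
    (hM : Function.Injective gM) (hN : Function.Injective gN) : L'.h0 ≤ L.h0 :=
  LinearMap.finrank_le_finrank_of_injective (mapH0_injective hrel hM hN)

/-- An injective morphism changes `χ` by the lengths of the cokernels. -/
theorem χ_eq_of_map (hrel : ∀ j m n, L'.Rel j m n → L.Rel j (gM m) (gN n))
    (hM : Function.Injective gM) (hN : Function.Injective gN)
    [Module.Finite K (L.M ⧸ LinearMap.range (gM.restrictScalars K))]
    [Module.Finite K (L.N ⧸ LinearMap.range (gN.restrictScalars K))]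
    [Module.Finite K (L.P ⧸ LinearMap.range ((mapP gN).restrictScalars K))] :
    L.χ = L'.χ + finrank K (L.M ⧸ LinearMap.range (gM.restrictScalars K)) +
      finrank K (L.N ⧸ LinearMap.range (gN.restrictScalars K)) -
      finrank K (L.P ⧸ LinearMap.range ((mapP gN).restrictScalars K)) := by
  let gR := (gM.restrictScalars K).prodMap (gN.restrictScalars K)
  let gP := (mapP gN).restrictScalars K
  have hR : Function.Injective gR := hM.prodMap hN
  have hP : Function.Injective gP := mapP_injective hN
  let q : L.M × L.N →ₗ[K] (L.M ⧸ LinearMap.range (gM.restrictScalars K)) ×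
      (L.N ⧸ LinearMap.range (gN.restrictScalars K)) :=
    (Submodule.mkQ _).prodMap (Submodule.mkQ _)
  have hq : LinearMap.ker q = LinearMap.range gR := by
    rw [LinearMap.ker_prodMap, Submodule.ker_mkQ, Submodule.ker_mkQ, LinearMap.range_prodMap]
  let eR : ((L.M × L.N) ⧸ LinearMap.range gR) ≃ₗ[K] _ :=
    (Submodule.quotEquivOfEq _ _ hq.symm).trans (q.quotKerEquivOfSurjective
      (Prod.map_surjective.mpr ⟨Submodule.mkQ_surjective _, Submodule.mkQ_surjective _⟩))
  have : Module.Finite K ((L.M × L.N) ⧸ LinearMap.range gR) := Module.Finite.equiv eR.symm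
  have : Module.Finite K (LinearMap.ker gR) := by
    rw [LinearMap.ker_eq_bot.mpr hR]; infer_instance
  have : Module.Finite K (LinearMap.ker gP) := by
    rw [LinearMap.ker_eq_bot.mpr hP]; infer_instance
  have : Module.Finite K (LinearMap.ker L.δ) := L.finite_H0_field
  have : Module.Finite K (LinearMap.ker L'.δ) := L'.finite_H0_field
  have h := congrArg LinearMap.index (δ_comp_map hrel)
  rw [LinearMap.index_comp, LinearMap.index_comp, LinearMap.index_of_injective hR,
    LinearMap.index_of_injective hP, eR.finrank_eq, Module.finrank_prod, ← χ_eq_index,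
    ← χ_eq_index] at h
  push_cast at h
  linarith

theorem Iso.h0_eq (e : Iso L' L) : L'.h0 = L.h0 :=
  le_antisymm (h0_le_of_map e.rel e.eM.injective e.eN.injective)
    (h0_le_of_map e.symm.rel e.symm.eM.injective e.symm.eN.injective)

theorem finite_quot_range_of_surjective {V W : Type u} [AddCommGroup V] [AddCommGroup W]
    [Module K V] [Module K W] {f : V →ₗ[K] W} (hf : Function.Surjective f) :
    Module.Finite K (W ⧸ LinearMap.range f) := by
  have : Subsingleton (W ⧸ LinearMap.range f) :=
    Submodule.Quotient.subsingleton_iff.mpr (LinearMap.range_eq_top.mpr hf)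
  infer_instance

theorem finrank_quot_range_of_surjective {V W : Type u} [AddCommGroup V] [AddCommGroup W]
    [Module K V] [Module K W] {f : V →ₗ[K] W} (hf : Function.Surjective f) :
    finrank K (W ⧸ LinearMap.range f) = 0 := by
  have : Subsingleton (W ⧸ LinearMap.range f) :=
    Submodule.Quotient.subsingleton_iff.mpr (LinearMap.range_eq_top.mpr hf)
  exact finrank_zero_of_subsingleton

theorem Iso.χ_eq (e : Iso L' L) : L'.χ = L.χ := by
  have h1 := finite_quot_range_of_surjective (K := K) (f := e.eM.toLinearMap.restrictScalars K)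
    e.eM.surjective
  have h2 := finite_quot_range_of_surjective (K := K) (f := e.eN.toLinearMap.restrictScalars K)
    e.eN.surjective
  have h3 := finite_quot_range_of_surjective (K := K)
    (f := (mapP (L' := L') (L := L) e.eN.toLinearMap).restrictScalars K)
    (mapP_surjective e.eN.surjective)
  rw [χ_eq_of_map (gM := e.eM.toLinearMap) (gN := e.eN.toLinearMap) e.rel e.eM.injective
      e.eN.injective, finrank_quot_range_of_surjective (f := e.eM.toLinearMap.restrictScalars K)
      e.eM.surjective, finrank_quot_range_of_surjective (f := e.eN.toLinearMap.restrictScalars K)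
      e.eN.surjective, finrank_quot_range_of_surjective
      (f := (mapP (L' := L') (L := L) e.eN.toLinearMap).restrictScalars K)
      (mapP_surjective e.eN.surjective)]
  simp

theorem Iso.h1_eq (e : Iso L' L) : L'.h1 = L.h1 := by
  have h := e.χ_eq
  rw [χ, χ, e.h0_eq] at h
  omega

/-- The untwisted line data. -/
def twistZero (L : LineData D K) : Iso (L.twist 0) L :=
  ⟨LinearEquiv.refl _ _, LinearEquiv.refl _ _, fun j m n h =>
    ((congrArg (algebraMap (D.AR₁ K) (D.BR K) (D.yR K) ^ j • ·)
      ((one_smul (D.BR K) (L.f₀ (m : L.M))).symm.trans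
        (congrArg (· • L.f₀ (m : L.M)) (pow_zero _).symm))).trans h :
      algebraMap (D.AR₁ K) (D.BR K) (D.yR K) ^ j • L.f₀ (m : L.M) = L.f₁ (n : L.N))⟩

theorem χ_twist (L : LineData D K) (m : ℕ) : (L.twist m).χ = L.χ + m * D.d := by
  have hu : IsUnit (algebraMap (D.AR₁ K) (D.BR K) (D.yR K)) :=
    IsUnit.of_mul_eq_one _ (by rw [mul_comm]; exact D.xR_mul_yR K)
  let g : L.N →ₗ[D.AR₁ K] L.N := LinearMap.lsmul (D.AR₁ K) L.N (D.yR K)
  have hg : Function.Injective g := fun a b h => L.f₁_injective (hu.smul_left_cancel.mp (by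
    rw [← L.f₁_smul, ← L.f₁_smul]
    exact congrArg L.f₁ h))
  have hrange : LinearMap.range (g.restrictScalars K) =
      ((Ideal.span {D.yR K} • (⊤ : Submodule (D.AR₁ K) L.N))).restrictScalars K := by
    ext w
    rw [Submodule.restrictScalars_mem, Submodule.ideal_span_singleton_smul,
      Submodule.mem_smul_pointwise_iff_exists]
    simp [g]
  have := D.finite_quot_yR K
  have hfin : Module.Finite K (L.N ⧸ LinearMap.range (g.restrictScalars K)) := by
    rw [hrange]; exact finite_quot_smul _
  have hdim : finrank K (L.N ⧸ LinearMap.range (g.restrictScalars K)) = D.d := by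
    rw [hrange, finrank_quot_smul, D.finrank_quot_yR K]
  have hPg : ∀ w : L.P, g.baseChange (D.BR K) w =
      algebraMap (D.AR₁ K) (D.BR K) (D.yR K) • w := by
    intro w
    induction w using TensorProduct.induction_on with
    | zero => rw [map_zero, smul_zero]
    | tmul b n =>
      show b ⊗ₜ[D.AR₁ K] (D.yR K • n) = _
      rw [TensorProduct.tmul_smul, ← algebraMap_smul (D.BR K)]
    | add a c ha hc => rw [map_add, ha, hc, smul_add]
  have hrel' : ∀ (i j : ℕ) (a : L.M) (b : L.N),
      algebraMap (D.AR₁ K) (D.BR K) (D.yR K) ^ j •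
        (algebraMap (D.AR₁ K) (D.BR K) (D.yR K) ^ i • L.f₀ a) = L.f₁ b →
      algebraMap (D.AR₁ K) (D.BR K) (D.yR K) ^ j •
        (algebraMap (D.AR₁ K) (D.BR K) (D.yR K) ^ (i + 1) • L.f₀ a) = L.f₁ (g b) := by
    intro i j a b h
    show _ = L.f₁ (D.yR K • b)
    rw [L.f₁_smul, ← h, smul_smul, smul_smul, smul_smul, pow_succ]
    congr 1
    ring
  induction m with
  | zero => simpa using (twistZero L).χ_eq
  | succ m ih =>
    let gM : (L.twist m).M →ₗ[D.AR K] (L.twist (m + 1)).M := (LinearMap.id : L.M →ₗ[D.AR K] L.M)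
    let gN : (L.twist m).N →ₗ[D.AR₁ K] (L.twist (m + 1)).N := g
    have hrel : ∀ j a b, (L.twist m).Rel j a b → (L.twist (m + 1)).Rel j (gM a) (gN b) :=
      fun j a b h => hrel' m j a b h
    have hP : Function.Surjective ((mapP gN).restrictScalars K) := fun z =>
      ⟨((hu.unit⁻¹ : (D.BR K)ˣ).val • (z : L.P) : L.P),
        (hPg _).trans ((smul_smul _ _ _).trans
          ((congrArg (· • (z : L.P)) hu.mul_val_inv).trans (one_smul _ (z : L.P))))⟩
    have hfin1 := finite_quot_range_of_surjective (K := K) (f := gM.restrictScalars K)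
      fun v => ⟨v, rfl⟩
    have hfin3 := finite_quot_range_of_surjective (K := K) hP
    have hfin2 : Module.Finite K
        ((L.twist (m + 1)).N ⧸ LinearMap.range (gN.restrictScalars K)) := hfin
    have hdim2 : finrank K ((L.twist (m + 1)).N ⧸ LinearMap.range (gN.restrictScalars K)) = D.d :=
      hdim
    rw [χ_eq_of_map hrel (fun _ _ h => h) hg, ih,
      finrank_quot_range_of_surjective (f := gM.restrictScalars K) fun v => ⟨v, rfl⟩,
      finrank_quot_range_of_surjective hP, hdim2]
    push_cast
    ring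

end Field

end Fermat.Agent.Jac.LineData
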