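import Fermat.Agent.Jac.Euler.Chi
import Fermat.Agent.Jac.Alg.Pullbacks
import Mathlib.RingTheory.LocalRing.Module
import Mathlib.RingTheory.Support
import Mathlib.RingTheory.Spectrum.Prime.Module

/-!
# The degree in families and the locus of fibres without cohomology
-/

set_option autoImplicit false

universe u

noncomputable section

open TensorProduct Module

namespace Fermat.Agent.Jac

/-- Nakayama for a fibre at an arbitrary field valued point. -/
theorem subsingleton_tensor_iff_notMem_support {R K : Type u} [CommRing R] [Field K] [Algebra R K]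
    {H : Type u} [AddCommGroup H] [Module R H] [Module.Finite R H] {q : PrimeSpectrum R}
    (hq : q.asIdeal = RingHom.ker (algebraMap R K)) :
    Subsingleton (K ⊗[R] H) ↔ q ∉ Module.support R H := by
  let F := q.asIdeal.ResidueField
  let g : R ⧸ q.asIdeal →+* K :=
    Ideal.Quotient.lift q.asIdeal (algebraMap R K) fun a ha => by rwa [hq] at ha
  have hg : Function.Injective g := RingHom.lift_injective_of_ker_le_ideal _ _ hq.ge
  let : Algebra F K := (IsFractionRing.lift (K := F) hg).toAlgebra
  have : IsScalarTower R F K := IsScalarTower.of_algebraMap_eq fun r => by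
    rw [RingHom.algebraMap_toAlgebra, IsScalarTower.algebraMap_apply R (R ⧸ q.asIdeal) F,
      IsFractionRing.lift_algebraMap]
    rfl
  rw [Module.mem_support_iff_nontrivial_residueField_tensorProduct, not_nontrivial_iff_subsingleton,
    ← (AlgebraTensorModule.cancelBaseChange R F K K H).toEquiv.subsingleton_congr]
  exact (finrank_zero_iff (R := K)).symm.trans
    ((by rw [finrank_baseChange] :
      finrank K (K ⊗[F] (F ⊗[R] H)) = 0 ↔ finrank F (F ⊗[R] H) = 0).trans finrank_zero_iff)

namespace LineData

variable {k : Type u} [Field k] {D : CurveData.{u} k}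
variable {R R' : Type u} [CommRing R] [Algebra k R] [CommRing R'] [Algebra k R']

theorem twist_rel_iff (L : LineData D R) (m : ℕ) {j : ℕ} {a : L.M} {b : L.N} :
    (L.twist m).Rel j a b ↔ L.Rel (j + m) a b := by
  show algebraMap (D.AR₁ R) (D.BR R) (D.yR R) ^ j •
    (algebraMap (D.AR₁ R) (D.BR R) (D.yR R) ^ m • L.f₀ a) = L.f₁ b ↔ _
  rw [smul_smul, ← pow_add]
  exact Iff.rfl

/-- Twisting commutes with pullback. -/
def Pullback.twist {φ : R →ₐ[k] R'} {L : LineData D R} {L' : LineData D R'}
    (p : Pullback φ L L') (m : ℕ) : Pullback φ (L.twist m) (L'.twist m) where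
  gM := p.gM
  gN := p.gN
  spanM := p.spanM
  spanN := p.spanN
  rel := fun _ _ _ h => (twist_rel_iff L' m).mpr (p.rel _ _ _ ((twist_rel_iff L m).mp h))

variable (L : LineData D R)

/-- A twist without first cohomology. -/
def bound : ℕ := L.exists_twist_surjective.choose

theorem surjective_δ_twist_bound : Function.Surjective (L.twist L.bound).δ :=
  L.exists_twist_surjective.choose_spec L.bound le_rfl

/-- The degree function (the Euler characteristic of the fibres). -/
def degree (q : PrimeSpectrum R) : ℤ :=
  (rankAtStalk (L.twist L.bound).H0 q : ℤ) - L.bound * D.d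

theorem isLocallyConstant_degree : IsLocallyConstant L.degree := by
  have := (L.twist L.bound).projective_H0 L.surjective_δ_twist_bound
  have := (L.twist L.bound).finite_H0 L.surjective_δ_twist_bound
  have : Module.FinitePresentation R (L.twist L.bound).H0 :=
    Module.finitePresentation_of_projective R _
  exact (isLocallyConstant_rankAtStalk (R := R) (M := (L.twist L.bound).H0)).comp
    fun n : ℕ => (n : ℤ) - L.bound * D.d

variable {L}

theorem χ_pullback_toAlgHom {K : Type u} [Field K] [Algebra k K] [Algebra R K] [IsScalarTower k R K]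
    {L' : LineData D K} (p : Pullback (IsScalarTower.toAlgHom k R K) L L') {q : PrimeSpectrum R}
    (hq : q.asIdeal = RingHom.ker (algebraMap R K)) :
    L'.χ = L.degree q := by
  let q' : PrimeSpectrum K := ⟨⊥, Ideal.isPrime_bot⟩
  have hq' : PrimeSpectrum.comap (algebraMap R K) q' = q := PrimeSpectrum.ext hq.symm
  have h := (p.twist L.bound).rankAtStalk_H0 L.surjective_δ_twist_bound q'
  rw [hq', rankAtStalk_eq_finrank_of_free] at h
  have hs : Function.Surjective (L'.twist L.bound).δ :=
    (p.twist L.bound).surjective_δ L.surjective_δ_twist_bound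
  have h2 : L'.χ + L.bound * D.d = ((L'.twist L.bound).h0 : ℤ) := by
    rw [← χ_twist, χ_eq_h0 _ hs]
  rw [degree, ← h]
  simp only [h0, Pi.natCast_def, Nat.cast_id] at h2 ⊢
  linarith

theorem χ_pullback {K : Type u} [Field K] [Algebra k K] {φ : R →ₐ[k] K} {L' : LineData D K}
    (p : Pullback φ L L') {q : PrimeSpectrum R} (hq : q.asIdeal = RingHom.ker φ) :
    L'.χ = L.degree q :=
  letI : Algebra R K := φ.toRingHom.toAlgebra
  haveI : IsScalarTower k R K := IsScalarTower.of_algebraMap_eq fun r => (φ.commutes r).symm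
  χ_pullback_toAlgHom p hq

theorem χ_field_extension {K K' : Type u} [Field K] [Algebra k K] [Field K'] [Algebra k K']
    {φ : K →ₐ[k] K'} {L : LineData D K} {L' : LineData D K'} (p : Pullback φ L L') :
    L'.χ = L.χ := by
  let q : PrimeSpectrum K := ⟨⊥, Ideal.isPrime_bot⟩
  rw [χ_pullback p (q := q) ((RingHom.injective_iff_ker_eq_bot _).mp φ.toRingHom.injective).symm,
    χ_pullback (Iso.refl L).toPullback (q := q)
      ((RingHom.injective_iff_ker_eq_bot _).mp (AlgHom.id k K).toRingHom.injective).symm]

theorem degree_pullback {φ : R →ₐ[k] R'} {L' : LineData D R'} (p : Pullback φ L L')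
    (q : PrimeSpectrum R') : L'.degree q = L.degree (PrimeSpectrum.comap φ.toRingHom q) := by
  obtain ⟨L'', ⟨p'⟩⟩ := exists_pullback (IsScalarTower.toAlgHom k R' q.asIdeal.ResidueField) L'
  have h₁ : L''.χ = L'.degree q :=
    χ_pullback p' (Ideal.ker_algebraMap_residueField q.asIdeal).symm
  rw [← h₁]
  refine χ_pullback (p.comp p') ?_
  ext r
  rw [PrimeSpectrum.comap_asIdeal, Ideal.mem_comap, RingHom.mem_ker, AlgHom.comp_apply,
    IsScalarTower.coe_toAlgHom', Ideal.algebraMap_residueField_eq_zero]
  rfl

theorem surjective_δ_pullback_toAlgHom_iff {K : Type u} [Field K] [Algebra k K] [Algebra R K]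
    [IsScalarTower k R K] {L' : LineData D K} (p : Pullback (IsScalarTower.toAlgHom k R K) L L')
    {q : PrimeSpectrum R} (hq : q.asIdeal = RingHom.ker (algebraMap R K)) :
    Function.Surjective L'.δ ↔ q ∉ Module.support R L.H1 := by
  rw [← subsingleton_tensor_iff_notMem_support (K := K) hq]
  have hγ : Function.Bijective (semiLift p.γ) :=
    ⟨p.semiLift_γ_injective, p.semiLift_γ_surjective⟩
  have hcomp : ⇑L'.δ ∘ ⇑(semiLift p.gR) = ⇑(semiLift p.γ) ∘ ⇑(L.δ.lTensor K) :=
    funext p.δ_semiLift
  have h1 : Function.Surjective L'.δ ↔ Function.Surjective (L.δ.lTensor K) := by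
    rw [← p.bijective_gR.surjective.of_comp_iff L'.δ, hcomp]
    exact ⟨fun h => h.of_comp_left hγ.injective, hγ.surjective.comp⟩
  rw [h1]
  have hex := lTensor_exact K (LinearMap.exact_map_mkQ_range L.δ)
    (Submodule.mkQ_surjective _)
  constructor
  · intro h
    refine subsingleton_of_forall_eq 0 fun z => ?_
    obtain ⟨w, rfl⟩ := LinearMap.lTensor_surjective K (Submodule.mkQ_surjective _) z
    exact (hex w).mpr (h w)
  · intro h w
    exact (hex w).mp (Subsingleton.elim (α := K ⊗[R] L.H1) _ _)

theorem surjective_δ_pullback_iff {K : Type u} [Field K] [Algebra k K] {φ : R →ₐ[k] K}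
    {L' : LineData D K} (p : Pullback φ L L') {q : PrimeSpectrum R}
    (hq : q.asIdeal = RingHom.ker φ) :
    Function.Surjective L'.δ ↔ q ∉ Module.support R L.H1 :=
  letI : Algebra R K := φ.toRingHom.toAlgebra
  haveI : IsScalarTower k R K := IsScalarTower.of_algebraMap_eq fun r => (φ.commutes r).symm
  surjective_δ_pullback_toAlgHom_iff p hq

variable (L)

/-- The points of the base whose fibres have no cohomology. -/
def bijLocus : Set (PrimeSpectrum R) :=
  {q | q ∉ Module.support R L.H1 ∧ L.degree q = 0}

theorem isOpen_bijLocus : IsOpen L.bijLocus :=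
  (Module.isClosed_support (R := R) (M := L.H1)).isOpen_compl.inter
    (L.isLocallyConstant_degree.isOpen_fiber 0)

variable {L}

theorem bijective_δ_pullback_iff {K : Type u} [Field K] [Algebra k K] {φ : R →ₐ[k] K}
    {L' : LineData D K} (p : Pullback φ L L') {q : PrimeSpectrum R}
    (hq : q.asIdeal = RingHom.ker φ) :
    Function.Bijective L'.δ ↔ q ∈ L.bijLocus := by
  rw [bijective_δ_iff_χ, surjective_δ_pullback_iff p hq, χ_pullback p hq]
  rfl

/-- Fibres without cohomology everywhere give no cohomology. -/
theorem bijective_δ_of_bijLocus (h : L.bijLocus = Set.univ) : Function.Bijective L.δ := by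
  have h1 : ∀ q, q ∉ Module.support R L.H1 := fun q => ((Set.eq_univ_iff_forall.mp h) q).1
  have hs : Function.Surjective L.δ := by
    rw [← LinearMap.range_eq_top, ← Submodule.Quotient.subsingleton_iff,
      ← Module.support_eq_empty_iff (R := R)]
    exact Set.eq_empty_iff_forall_notMem.mpr h1
  have := L.projective_H0 hs
  have := L.finite_H0 hs
  refine ⟨?_, hs⟩
  suffices hsub : Subsingleton L.H0 by
    rw [← LinearMap.ker_eq_bot]
    exact (Submodule.subsingleton_iff_eq_bot (p := L.H0)).mp hsub
  rw [← rankAtStalk_eq_zero_iff_subsingleton (R := R)]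
  ext q
  obtain ⟨L', ⟨p⟩⟩ := exists_pullback (IsScalarTower.toAlgHom k R q.asIdeal.ResidueField) L
  have hq : q.asIdeal = RingHom.ker (IsScalarTower.toAlgHom k R q.asIdeal.ResidueField) :=
    (Ideal.ker_algebraMap_residueField q.asIdeal).symm
  have hb := (bijective_δ_pullback_iff p hq).mpr ((Set.eq_univ_iff_forall.mp h) q)
  let q' : PrimeSpectrum q.asIdeal.ResidueField := ⟨⊥, Ideal.isPrime_bot⟩
  have hr := p.rankAtStalk_H0 hs q'
  rw [rankAtStalk_eq_finrank_of_free, show PrimeSpectrum.comap
    (algebraMap R q.asIdeal.ResidueField) q' = q from PrimeSpectrum.ext hq.symm] at hr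
  rw [← hr, Pi.zero_apply]
  exact (h0_eq_zero_iff L').mpr hb.1

theorem bijective_δ_of_forall (h : ∀ (K : Type u) [Field K] [Algebra k K] (φ : R →ₐ[k] K)
    (L' : LineData D K), Pullback φ L L' → Function.Bijective L'.δ) :
    Function.Bijective L.δ := by
  refine bijective_δ_of_bijLocus (Set.eq_univ_iff_forall.mpr fun q => ?_)
  obtain ⟨L', ⟨p⟩⟩ := exists_pullback (IsScalarTower.toAlgHom k R q.asIdeal.ResidueField) L
  exact (bijective_δ_pullback_iff p (Ideal.ker_algebraMap_residueField q.asIdeal).symm).mp
    (h _ _ _ p)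

theorem Pullback.bijective_δ_toAlgHom [Algebra R R'] [IsScalarTower k R R'] {L' : LineData D R'}
    (p : Pullback (IsScalarTower.toAlgHom k R R') L L') (h : Function.Bijective L.δ) :
    Function.Bijective L'.δ := by
  refine ⟨?_, p.surjective_δ h.2⟩
  rw [← LinearMap.ker_eq_bot]
  have h0 : Subsingleton L.H0 :=
    Submodule.subsingleton_iff_eq_bot.mpr (LinearMap.ker_eq_bot.mpr h.1)
  have : Subsingleton L'.H0 := (p.H0Equiv h.2).symm.toEquiv.subsingleton
  exact (Submodule.subsingleton_iff_eq_bot (p := L'.H0)).mp this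

/-- Vanishing cohomology is stable under pullback. -/
theorem Pullback.bijective_δ {φ : R →ₐ[k] R'} {L' : LineData D R'} (p : Pullback φ L L')
    (h : Function.Bijective L.δ) : Function.Bijective L'.δ :=
  letI : Algebra R R' := φ.toRingHom.toAlgebra
  haveI : IsScalarTower k R R' := IsScalarTower.of_algebraMap_eq fun r => (φ.commutes r).symm
  Pullback.bijective_δ_toAlgHom p h

end LineData

end Fermat.Agent.Jac
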