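import Fermat.Agent.Jac.Euler.Chi
import Fermat.Agent.Jac.Alg.Rigid

/-!
# The global sections of the trivial line data are the constants
-/

set_option autoImplicit false

universe u

noncomputable section

open TensorProduct Module

namespace Fermat.Agent.Jac.LineData

variable {k : Type u} [Field k] {D : CurveData.{u} k}
variable (R : Type u) [CommRing R] [Algebra k R]

theorem exists_const_of_mem_H0 {a : D.AR R} {b : D.AR₁ R}
    (h : algebraMap (D.AR R) (D.BR R) a = algebraMap (D.AR₁ R) (D.BR R) b) :
    ∃ r : R, a = algebraMap R (D.AR R) r ∧ b = algebraMap R (D.AR₁ R) r := by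
  obtain ⟨s, hsV, hs⟩ := D.exists_bound_set R 0
  have ha := hs a b (by rw [pow_zero, one_mul, h])
  obtain ⟨r, hr⟩ : ∃ r : R, a = algebraMap R (D.AR R) r := by
    clear h
    induction ha using Submodule.span_induction with
    | mem w hw =>
      obtain ⟨v, hv, rfl⟩ := hw
      obtain ⟨c, hc⟩ := D.mem_Vpole.mp (hsV hv)
      obtain ⟨r, rfl⟩ := D.global_const v c (by simpa using hc.symm)
      exact ⟨algebraMap k R r, by
        simp [Algebra.algebraMap_eq_smul_one, Algebra.TensorProduct.one_def]⟩
    | zero => exact ⟨0, by simp⟩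
    | add u v _ _ hu hv =>
      obtain ⟨p, rfl⟩ := hu
      obtain ⟨q, rfl⟩ := hv
      exact ⟨p + q, by rw [map_add]⟩
    | smul t u _ hu =>
      obtain ⟨p, rfl⟩ := hu
      exact ⟨t * p, by rw [map_mul, Algebra.smul_def]⟩
  refine ⟨r, hr, D.injective_algebraMap₁ ?_⟩
  rw [← h, hr, ← IsScalarTower.algebraMap_apply, ← IsScalarTower.algebraMap_apply]

/-- A constant as a global section. -/
def constH0 : R →ₗ[R] (unit : LineData D R).H0 :=
  ((Algebra.linearMap R (D.AR R)).prod (Algebra.linearMap R (D.AR₁ R))).codRestrict _ fun r => by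
    refine mem_H0 _ |>.mpr ?_
    rw [unit_f₀, unit_f₁]
    simp only [Algebra.linearMap_apply]
    rw [← IsScalarTower.algebraMap_apply R (D.AR R) (D.BR R),
      ← IsScalarTower.algebraMap_apply R (D.AR₁ R) (D.BR R)]

theorem bijective_constH0 : Function.Bijective (constH0 (D := D) R) := by
  refine ⟨fun r s h => ?_, fun z => ?_⟩
  · have h' := congrArg (fun z : (unit : LineData D R).H0 => D.evR (z.1.2 : D.AR₁ R)) h
    change D.evR (algebraMap R (D.AR₁ R) r) = D.evR (algebraMap R (D.AR₁ R) s) at h'
    rw [AlgHom.commutes, AlgHom.commutes] at h'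
    exact h'
  · obtain ⟨⟨a, b⟩, hz⟩ := z
    have h : (unit : LineData D R).Rel 0 a b := by
      show _ • (unit : LineData D R).f₀ a = (unit : LineData D R).f₁ b
      rw [pow_zero, one_smul]
      exact (mem_H0 _).mp hz
    rw [unit_rel_iff, pow_zero, mul_one] at h
    obtain ⟨r, rfl, rfl⟩ := exists_const_of_mem_H0 (D := D) R h
    exact ⟨r, rfl⟩

/-- The global sections of the trivial line data. -/
def unitH0Equiv : R ≃ₗ[R] (unit : LineData D R).H0 :=
  LinearEquiv.ofBijective (constH0 R) (bijective_constH0 R)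

variable (K : Type u) [Field K] [Algebra k K]

theorem h0_unit : (unit : LineData D K).h0 = 1 :=
  (unitH0Equiv (D := D) K).finrank_eq.symm.trans (finrank_self K)

theorem χ_unit : (unit : LineData D K).χ = 1 - (unit : LineData D K).h1 := by
  rw [χ, h0_unit, Nat.cast_one]

end Fermat.Agent.Jac.LineData
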