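import Fermat.Agent.Jac.Euler.Point
import Fermat.Agent.Jac.Euler.Family
import Fermat.Agent.Jac.Euler.Unit

/-!
# `χ`, degree and vanishing of cohomology on Picard classes
-/

set_option autoImplicit false

universe u

noncomputable section

open TensorProduct Module

namespace Fermat.Agent.Jac

variable {k : Type u} [Field k] {D : CurveData.{u} k}

namespace LinePic

variable {R R' : Type u} [CommRing R] [Algebra k R] [CommRing R'] [Algebra k R']
variable {K K' : Type u} [Field K] [Algebra k K] [Field K'] [Algebra k K']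

/-- The Euler characteristic. -/
def χ (x : LinePic D K) : ℤ :=
  Quotient.lift (s := LineData.isoSetoid D K) LineData.χ (fun _ _ ⟨e⟩ => e.χ_eq) x

/-- The dimension of the space of global sections. -/
def h0 (x : LinePic D K) : ℕ :=
  Quotient.lift (s := LineData.isoSetoid D K) LineData.h0 (fun _ _ ⟨e⟩ => e.h0_eq) x

/-- The dimension of the first cohomology. -/
def h1 (x : LinePic D K) : ℕ :=
  Quotient.lift (s := LineData.isoSetoid D K) LineData.h1 (fun _ _ ⟨e⟩ => e.h1_eq) x

/-- All cohomology vanishes. -/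
def NoCoh (x : LinePic D R) : Prop :=
  Quotient.lift (s := LineData.isoSetoid D R) (fun L : LineData D R => Function.Bijective L.δ)
    (fun _ _ ⟨e⟩ => propext e.bijective_δ_iff) x

/-- The degree (Euler characteristic of the fibres) as a function on the base. -/
def degree (x : LinePic D R) : PrimeSpectrum R → ℤ :=
  Quotient.lift (s := LineData.isoSetoid D R) LineData.degree
    (fun L L' ⟨e⟩ => funext fun q => by
      rw [LineData.degree_pullback e.toPullback q]
      rfl) x

theorem χ_mk (L : LineData D K) : χ (mk L) = L.χ := rfl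

theorem h0_mk (L : LineData D K) : h0 (mk L) = L.h0 := rfl

theorem h1_mk (L : LineData D K) : h1 (mk L) = L.h1 := rfl

theorem noCoh_mk (L : LineData D R) : NoCoh (mk L) ↔ Function.Bijective L.δ := Iff.rfl

theorem degree_mk (L : LineData D R) : degree (mk L) = L.degree := rfl

theorem χ_eq_sub (x : LinePic D K) : χ x = (h0 x : ℤ) - h1 x := by
  obtain ⟨L, rfl⟩ := mk_surjective x
  rfl

theorem h0_one : h0 (1 : LinePic D K) = 1 := LineData.h0_unit K

theorem χ_one : χ (1 : LinePic D K) = 1 - h1 (1 : LinePic D K) := LineData.χ_unit K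

theorem isLocallyConstant_degree (x : LinePic D R) : IsLocallyConstant (degree x) := by
  obtain ⟨L, rfl⟩ := mk_surjective x
  exact L.isLocallyConstant_degree

theorem χ_map (φ : R →ₐ[k] K) (x : LinePic D R) {q : PrimeSpectrum R}
    (hq : q.asIdeal = RingHom.ker φ) : χ (map φ x) = degree x q := by
  obtain ⟨L, rfl⟩ := mk_surjective x
  obtain ⟨L', ⟨p⟩⟩ := LineData.exists_pullback φ L
  rw [map_mk p]
  exact LineData.χ_pullback p hq

theorem χ_map_field (φ : K →ₐ[k] K') (x : LinePic D K) : χ (map φ x) = χ x := by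
  obtain ⟨L, rfl⟩ := mk_surjective x
  obtain ⟨L', ⟨p⟩⟩ := LineData.exists_pullback φ L
  rw [map_mk p]
  exact LineData.χ_field_extension p

theorem degree_map (φ : R →ₐ[k] R') (x : LinePic D R) (q : PrimeSpectrum R') :
    degree (map φ x) q = degree x (PrimeSpectrum.comap φ.toRingHom q) := by
  obtain ⟨L, rfl⟩ := mk_surjective x
  obtain ⟨L', ⟨p⟩⟩ := LineData.exists_pullback φ L
  rw [map_mk p]
  exact LineData.degree_pullback p q

theorem NoCoh.map {x : LinePic D R} (h : NoCoh x) (φ : R →ₐ[k] R') : NoCoh (map φ x) := by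
  obtain ⟨L, rfl⟩ := mk_surjective x
  obtain ⟨L', ⟨p⟩⟩ := LineData.exists_pullback φ L
  rw [map_mk p]
  exact LineData.Pullback.bijective_δ p h

theorem noCoh_field_iff (x : LinePic D K) : NoCoh x ↔ h1 x = 0 ∧ χ x = 0 := by
  obtain ⟨L, rfl⟩ := mk_surjective x
  exact (noCoh_mk L).trans (L.bijective_δ_iff_χ.trans
    (and_congr_left' L.h1_eq_zero_iff.symm))

theorem noCoh_of_forall {x : LinePic D R}
    (h : ∀ (K : Type u) [Field K] [Algebra k K] (φ : R →ₐ[k] K), NoCoh (LinePic.map φ x)) :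
    NoCoh x := by
  obtain ⟨L, rfl⟩ := mk_surjective x
  refine LineData.bijective_δ_of_forall fun K _ _ φ L' p => ?_
  have := h K φ
  rwa [map_mk p] at this

/-- Vanishing of the cohomology is an open condition
on the fibres. -/
theorem exists_isOpen_noCoh (x : LinePic D R) :
    ∃ U : Set (PrimeSpectrum R), IsOpen U ∧ ∀ (K : Type u) [Field K] [Algebra k K]
      (φ : R →ₐ[k] K) (q : PrimeSpectrum R), q.asIdeal = RingHom.ker φ →
        (NoCoh (LinePic.map φ x) ↔ q ∈ U) := by
  obtain ⟨L, rfl⟩ := mk_surjective x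
  refine ⟨L.bijLocus, L.isOpen_bijLocus, fun K _ _ φ q hq => ?_⟩
  obtain ⟨L', ⟨p⟩⟩ := LineData.exists_pullback φ L
  rw [map_mk p]
  exact LineData.bijective_δ_pullback_iff p hq

/-- The class of a point of the curve. -/
def ptClass (φ : (D.A →ₐ[k] k) ⊕ (D.A₁ →ₐ[k] k)) : LinePic D k :=
  φ.elim (fun f => mk (D.pointData₀ f)) fun f => mk (D.pointData₁ f)

theorem χ_mul_map_ptClass (ψ : k →ₐ[k] K) (x : LinePic D K)
    (φ : (D.A →ₐ[k] k) ⊕ (D.A₁ →ₐ[k] k)) : χ (x * map ψ (ptClass φ)) = χ x - 1 := by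
  obtain ⟨L, rfl⟩ := mk_surjective x
  rcases φ with φ | φ
  · obtain ⟨P, ⟨p⟩⟩ := LineData.exists_pullback ψ (D.pointData₀ φ)
    rw [show ptClass (Sum.inl φ) = mk (D.pointData₀ φ) from rfl, map_mk p, mk_mul]
    exact LineData.χ_tensor_point₀ p L
  · obtain ⟨P, ⟨p⟩⟩ := LineData.exists_pullback ψ (D.pointData₁ φ)
    rw [show ptClass (Sum.inr φ) = mk (D.pointData₁ φ) from rfl, map_mk p, mk_mul]
    exact LineData.χ_tensor_point₁ p L

/-- A class over `k` twisting `x` to vanishing cohomology, when `H1` vanishes. -/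
theorem exists_noCoh_mul [IsAlgClosed k] (ψ : k →ₐ[k] K) (x : LinePic D K) (h : h1 x = 0) :
    ∃ l : List (D.B →ₐ[k] k), l.length = h0 x ∧
      NoCoh (x * map ψ (l.map fun φ => ptClass (Sum.inl (φ.comp D.i₀))).prod) := by
  obtain ⟨L, rfl⟩ := mk_surjective x
  obtain ⟨l, hl, L', hL', heq⟩ :=
    LineData.exists_points_bijective ψ L (L.h1_eq_zero_iff.mp h)
  refine ⟨l, hl, ?_⟩
  rw [mul_comm]
  exact (congrArg NoCoh heq).mp hL'

/-- The degree of a class over `k`. -/
def deg (x : LinePic D k) : ℤ := χ x - χ (1 : LinePic D k)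

end LinePic

end Fermat.Agent.Jac
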