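import Fermat.Agent.Jac.Euler.Classes

/-!
# The degree homomorphism and generation by points over an algebraically closed field
-/

set_option autoImplicit false

universe u

noncomputable section

open TensorProduct Module

namespace Fermat.Agent.Jac

variable {k : Type u} [Field k] {D : CurveData.{u} k}

theorem smul_eq_zero_imp_of_projective {S M : Type u} [CommRing S] [IsDomain S] [AddCommGroup M]
    [Module S M] [Module.Projective S M] {m : M} (hm : m ≠ 0) :
    Function.Injective (LinearMap.toSpanSingleton S M m) := by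
  obtain ⟨s, hs⟩ := Module.projective_def'.mp (inferInstance : Module.Projective S M)
  rw [← LinearMap.ker_eq_bot, LinearMap.ker_eq_bot']
  intro a ha
  have h : a • s m = 0 := by
    rw [← map_smul, show a • m = 0 from ha, map_zero]
  refine (smul_eq_zero.mp h).resolve_right fun h0 => hm ?_
  have := LinearMap.congr_fun hs m
  rwa [LinearMap.comp_apply, h0, map_zero, eq_comm] at this

namespace LineData

/-- Multiplication by a nonzero section embeds the space of global sections. -/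
theorem h0_le_h0_tensor (L L' : LineData D k) {z : L'.M × L'.N} (hz : z ∈ L'.H0) (hz0 : z ≠ 0) :
    L.h0 ≤ (L.tensor L').h0 := by
  have := D.isDomain_AR
  have := D.isDomain_AR₁
  obtain ⟨m, n⟩ := z
  have hmn := L'.mem_H0.mp hz
  have hrel0 : L'.Rel 0 m n := by
    show _ • L'.f₀ m = L'.f₁ n
    rw [pow_zero, one_smul, hmn]
  have hm : m ≠ 0 := fun h => hz0 (Prod.ext h (L'.f₁_injective (by
    rw [← hmn, h, map_zero]; exact (map_zero L'.f₁).symm)))
  have hn : n ≠ 0 := fun h => hz0 (Prod.ext (L'.f₀_injective (by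
    rw [hmn, h, map_zero]; exact (map_zero L'.f₀).symm)) h)
  let gM : L.M →ₗ[D.AR k] (L.tensor L').M :=
    (LinearMap.toSpanSingleton (D.AR k) L'.M m).lTensor L.M ∘ₗ
      (TensorProduct.rid (D.AR k) L.M).symm.toLinearMap
  let gN : L.N →ₗ[D.AR₁ k] (L.tensor L').N :=
    (LinearMap.toSpanSingleton (D.AR₁ k) L'.N n).lTensor L.N ∘ₗ
      (TensorProduct.rid (D.AR₁ k) L.N).symm.toLinearMap
  have hrel : ∀ j a b, L.Rel j a b → (L.tensor L').Rel j (gM a) (gN b) := by
    intro j a b hab
    have h := hab.tmul hrel0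
    rw [Nat.add_zero] at h
    have hM : gM a = a ⊗ₜ m := by simp [gM]
    have hN : gN b = b ⊗ₜ n := by simp [gN]
    rw [hM, hN]
    exact h
  exact h0_le_of_map hrel
    ((Module.Flat.lTensor_preserves_injective_linearMap _
      (smul_eq_zero_imp_of_projective hm)).comp (TensorProduct.rid _ _).symm.injective)
    ((Module.Flat.lTensor_preserves_injective_linearMap _
      (smul_eq_zero_imp_of_projective hn)).comp (TensorProduct.rid _ _).symm.injective)

/-- A section vanishing along ideals comes from the twisted line data. -/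
theorem h0_tensor_ofIdeals_pos (L : LineData D k) (I : Ideal (D.AR k)) (J : Ideal (D.AR₁ k))
    [Module.Invertible (D.AR k) I] [Module.Invertible (D.AR₁ k) J]
    (h : I.map (algebraMap (D.AR k) (D.BR k)) = J.map (algebraMap (D.AR₁ k) (D.BR k)))
    {z : L.M × L.N} (hz : z ∈ L.H0) (hz0 : z ≠ 0)
    (hI : z.1 ∈ I • (⊤ : Submodule (D.AR k) L.M))
    (hJ : z.2 ∈ J • (⊤ : Submodule (D.AR₁ k) L.N)) :
    0 < (L.tensor (ofIdeals I J h)).h0 := by
  obtain ⟨w, hw⟩ := (range_act (M := L.M) I).ge hI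
  obtain ⟨v, hv⟩ := (range_act (M := L.N) J).ge hJ
  let gM : (L.tensor (ofIdeals I J h)).M →ₗ[D.AR k] L.M := L.actI I
  let gN : (L.tensor (ofIdeals I J h)).N →ₗ[D.AR₁ k] L.N := L.actJ J
  have hδ := LinearMap.congr_fun (δ_comp_map (gM := gM) (gN := gN) (L.act_rel I J h)) (w, v)
  have hwv : (gM w, gN v) = z := Prod.ext hw hv
  have h1 : (mapP gN) ((L.tensor (ofIdeals I J h)).δ (w, v)) = 0 := by
    refine (hδ.symm.trans ?_)
    show L.δ (gM w, gN v) = 0
    rw [hwv]
    exact LinearMap.mem_ker.mp hz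
  have h2 : ((w, v) : (L.tensor (ofIdeals I J h)).M × (L.tensor (ofIdeals I J h)).N) ∈
      (L.tensor (ofIdeals I J h)).H0 :=
    LinearMap.mem_ker.mpr (mapP_injective (gN := gN) (L.actJ_injective J)
      (h1.trans (map_zero _).symm))
  refine Nat.pos_of_ne_zero fun h3 => hz0 ?_
  have h4 : ((w, v) : (L.tensor (ofIdeals I J h)).M × (L.tensor (ofIdeals I J h)).N) = 0 := by
    have hinj := ((L.tensor (ofIdeals I J h)).h0_eq_zero_iff).mp h3
    exact hinj ((LinearMap.mem_ker.mp h2).trans (map_zero _).symm)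
  rw [Prod.ext_iff] at h4
  exact hwv.symm.trans (Prod.ext ((congrArg gM h4.1).trans (map_zero gM))
    ((congrArg gN h4.2).trans (map_zero gN)))

end LineData

namespace LinePic

variable {K : Type u} [Field K] [Algebra k K]

theorem h0_le_h0_mul (a : LinePic D k) {b : LinePic D k} (hb : 0 < h0 b) :
    h0 a ≤ h0 (a * b) := by
  obtain ⟨L, rfl⟩ := mk_surjective a
  obtain ⟨L', rfl⟩ := mk_surjective b
  have hne : L'.H0 ≠ ⊥ := fun hbot => by
    rw [h0_mk, LineData.h0, hbot, finrank_bot] at hb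
    exact lt_irrefl 0 hb
  obtain ⟨z, hz, hz0⟩ := Submodule.exists_mem_ne_zero_of_ne_bot hne
  exact L.h0_le_h0_tensor L' hz hz0

theorem χ_mul_map_prod (ψ : k →ₐ[k] K) (x : LinePic D K)
    (l : List ((D.A →ₐ[k] k) ⊕ (D.A₁ →ₐ[k] k))) :
    χ (x * map ψ (l.map ptClass).prod) = χ x - l.length := by
  induction l generalizing x with
  | nil => simp
  | cons φ l ih =>
    rw [List.map_cons, List.prod_cons, map_mul, ← mul_assoc, ih, χ_mul_map_ptClass,
      List.length_cons]
    push_cast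
    ring

theorem χ_mul_prod (x : LinePic D k) (l : List ((D.A →ₐ[k] k) ⊕ (D.A₁ →ₐ[k] k))) :
    χ (x * (l.map ptClass).prod) = χ x - l.length := by
  have h := χ_mul_map_prod (AlgHom.id k k) x l
  rwa [map_id] at h

theorem deg_one : deg (1 : LinePic D k) = 0 := sub_self _

variable [IsAlgClosed k]

theorem exists_ptClass_of_h0_pos (x : LinePic D k) (hx : 0 < h0 x) :
    x = 1 ∨ ∃ φ, 0 < h0 (x * ptClass φ) := by
  obtain ⟨L, rfl⟩ := mk_surjective x
  have hne : L.H0 ≠ ⊥ := fun hbot => by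
    rw [h0_mk, LineData.h0, hbot, finrank_bot] at hx
    exact lt_irrefl 0 hx
  obtain ⟨z, hz, hz0⟩ := Submodule.exists_mem_ne_zero_of_ne_bot hne
  rcases L.iso_unit_or_vanishes hz with ⟨⟨e⟩⟩ | ⟨φ, hI, hJ⟩ | ⟨φ, hI, hJ⟩
  · exact Or.inl (mk_eq_mk.mpr ⟨e.symm⟩)
  · exact Or.inr ⟨Sum.inl φ, L.h0_tensor_ofIdeals_pos _ _ (D.map_ptI₀ φ) hz hz0 hI hJ⟩
  · exact Or.inr ⟨Sum.inr φ, L.h0_tensor_ofIdeals_pos _ _ (D.map_ptI₁ φ) hz hz0 hI hJ⟩

/-- An effective class is inverse to a product of point classes. -/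
theorem exists_prod_of_h0_pos (x : LinePic D k) (hx : 0 < h0 x) :
    ∃ l : List ((D.A →ₐ[k] k) ⊕ (D.A₁ →ₐ[k] k)), x * (l.map ptClass).prod = 1 := by
  by_contra hne
  rw [not_exists] at hne
  have key : ∀ n : ℕ, ∃ l : List ((D.A →ₐ[k] k) ⊕ (D.A₁ →ₐ[k] k)),
      l.length = n ∧ 0 < h0 (x * (l.map ptClass).prod) := by
    intro n
    induction n with
    | zero => exact ⟨[], rfl, by simpa using hx⟩
    | succ n ih =>
      obtain ⟨l, hl, hpos⟩ := ih
      obtain h | ⟨φ, hφ⟩ := exists_ptClass_of_h0_pos _ hpos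
      · exact absurd h (hne l)
      · refine ⟨φ :: l, by rw [List.length_cons, hl], ?_⟩
        rwa [List.map_cons, List.prod_cons, mul_comm (ptClass φ), ← mul_assoc]
  obtain ⟨l, hl, hpos⟩ := key (((h0 x : ℤ) - χ (1 : LinePic D k)).toNat + 1)
  have h1 := h0_le_h0_mul ((l.map ptClass).prod)⁻¹ hpos
  rw [mul_left_comm, inv_mul_cancel, mul_one] at h1
  have h2 := χ_mul_prod ((l.map ptClass).prod)⁻¹ l
  rw [inv_mul_cancel] at h2
  have h3 := χ_eq_sub ((l.map ptClass).prod)⁻¹
  omega

/-- Every class is a quotient of two products of point classes. -/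
theorem exists_prods (x : LinePic D k) :
    ∃ l₁ l₂ : List ((D.A →ₐ[k] k) ⊕ (D.A₁ →ₐ[k] k)),
      x * (l₁.map ptClass).prod = (l₂.map ptClass).prod := by
  let l₂ : List ((D.A →ₐ[k] k) ⊕ (D.A₁ →ₐ[k] k)) :=
    List.replicate ((1 - χ x).toNat) (Sum.inr D.ev)
  have hlen : l₂.length = (1 - χ x).toNat := List.length_replicate
  have hy : 0 < h0 (x * ((l₂.map ptClass).prod)⁻¹) := by
    have h := χ_mul_prod (x * ((l₂.map ptClass).prod)⁻¹) l₂
    rw [inv_mul_cancel_right] at h
    have h' := χ_eq_sub (x * ((l₂.map ptClass).prod)⁻¹)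
    omega
  obtain ⟨l₁, h₁⟩ := exists_prod_of_h0_pos _ hy
  refine ⟨l₁, l₂, ?_⟩
  rwa [mul_right_comm, mul_inv_eq_one] at h₁

/-- A class over `k` shifts `χ` by its degree over every field. -/
theorem χ_mul_map (ψ : k →ₐ[k] K) (x : LinePic D K) (e : LinePic D k) :
    χ (x * map ψ e) = χ x + deg e := by
  obtain ⟨l₁, l₂, h⟩ := exists_prods e
  have h1 := χ_mul_map_prod ψ (x * map ψ e) l₁
  rw [mul_assoc, ← map_mul, h, χ_mul_map_prod] at h1
  have h2 := χ_mul_prod e l₁
  rw [h, ← one_mul (List.map ptClass l₂).prod, χ_mul_prod] at h2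
  rw [deg]
  omega

theorem χ_mul (x e : LinePic D k) : χ (x * e) = χ x + deg e := by
  have h := χ_mul_map (AlgHom.id k k) x e
  rwa [map_id] at h

theorem deg_mul (x y : LinePic D k) : deg (x * y) = deg x + deg y := by
  rw [deg, χ_mul, deg, deg]
  ring

/-- The degree as a homomorphism. -/
def degHom : LinePic D k →* Multiplicative ℤ where
  toFun x := Multiplicative.ofAdd (deg x)
  map_one' := by rw [deg_one]; rfl
  map_mul' x y := by rw [deg_mul]; rfl

theorem deg_inv (x : LinePic D k) : deg x⁻¹ = -deg x := by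
  have h := deg_mul x⁻¹ x
  rw [inv_mul_cancel, deg_one] at h
  omega

theorem deg_pow (x : LinePic D k) (n : ℕ) : deg (x ^ n) = n * deg x := by
  induction n with
  | zero => simp [deg_one]
  | succ n ih => rw [pow_succ, deg_mul, ih]; push_cast; ring

omit [IsAlgClosed k] in
theorem deg_ptClass (φ : (D.A →ₐ[k] k) ⊕ (D.A₁ →ₐ[k] k)) : deg (ptClass φ) = -1 := by
  have h := χ_mul_prod (1 : LinePic D k) [φ]
  rw [List.map_singleton, List.prod_singleton, one_mul, List.length_singleton] at h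
  rw [deg, h]
  omega

/-- An effective class of degree `n` is inverse to a product of `n` point classes. -/
theorem exists_prod_deg (x : LinePic D k) (hx : 0 < h0 x) :
    ∃ l : List ((D.A →ₐ[k] k) ⊕ (D.A₁ →ₐ[k] k)),
      (l.length : ℤ) = deg x ∧ x * (l.map ptClass).prod = 1 := by
  obtain ⟨l, hl⟩ := exists_prod_of_h0_pos x hx
  refine ⟨l, ?_, hl⟩
  have h := χ_mul_prod x l
  rw [hl] at h
  rw [deg]
  omega

/-- The genus. -/
def genus (D : CurveData.{u} k) : ℕ := h1 (1 : LinePic D k)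

omit [IsAlgClosed k] in
theorem χ_one_eq_genus : χ (1 : LinePic D k) = 1 - genus D := χ_one

/-- Degree zero classes are differences of `genus` points and multiples of `ε`. -/
theorem exists_prod_of_deg_zero (x : LinePic D k) (hx : deg x = 0) :
    ∃ l : List ((D.A →ₐ[k] k) ⊕ (D.A₁ →ₐ[k] k)), l.length = genus D ∧
      x = ((l.map ptClass).prod)⁻¹ * ptClass (Sum.inr D.ev) ^ genus D := by
  let y := x * (ptClass (D := D) (Sum.inr D.ev) ^ genus D)⁻¹
  have hy : deg y = genus D := by
    rw [deg_mul, deg_inv, deg_pow, deg_ptClass, hx]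
    ring
  have hpos : 0 < h0 y := by
    have h := χ_eq_sub y
    have h' : χ y = 1 := by
      have : χ y - χ (1 : LinePic D k) = genus D := hy
      rw [χ_one_eq_genus] at this
      omega
    omega
  obtain ⟨l, hl, hl'⟩ := exists_prod_deg y hpos
  refine ⟨l, by rw [hy] at hl; exact_mod_cast hl, ?_⟩
  rw [eq_inv_mul_iff_mul_eq, mul_comm]
  rwa [mul_right_comm, mul_inv_eq_one] at hl'

end LinePic

end Fermat.Agent.Jac
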