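import Fermat.Agent.Jac.Euler.Chi
import Fermat.Agent.Jac.Alg.Tensor
import Fermat.Agent.Jac.Diagonal.Zeros

/-!
# Tensoring with the line data of an ideal of finite colength
-/

set_option autoImplicit false

universe u

noncomputable section

open TensorProduct Module

namespace Fermat.Agent.Jac.LineData

variable {k : Type u} [Field k] {D : CurveData.{u} k}

section Ring

variable {R : Type u} [CommRing R] [Algebra k R]
variable (L : LineData D R)

/-- `M ⊗ I → M`. -/
def actI (I : Ideal (D.AR R)) : L.M ⊗[D.AR R] I →ₗ[D.AR R] L.M :=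
  (TensorProduct.rid (D.AR R) L.M).toLinearMap ∘ₗ I.subtype.lTensor L.M

/-- `N ⊗ J → N`. -/
def actJ (J : Ideal (D.AR₁ R)) : L.N ⊗[D.AR₁ R] J →ₗ[D.AR₁ R] L.N :=
  (TensorProduct.rid (D.AR₁ R) L.N).toLinearMap ∘ₗ J.subtype.lTensor L.N

theorem actI_tmul (I : Ideal (D.AR R)) (m : L.M) (a : I) :
    L.actI I (m ⊗ₜ a) = (a : D.AR R) • m := by simp [actI]

theorem actJ_tmul (J : Ideal (D.AR₁ R)) (n : L.N) (b : J) :
    L.actJ J (n ⊗ₜ b) = (b : D.AR₁ R) • n := by simp [actJ]

theorem actI_injective (I : Ideal (D.AR R)) : Function.Injective (L.actI I) :=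
  (TensorProduct.rid (D.AR R) L.M).injective.comp
    (Module.Flat.lTensor_preserves_injective_linearMap _ I.subtype_injective)

theorem actJ_injective (J : Ideal (D.AR₁ R)) : Function.Injective (L.actJ J) :=
  (TensorProduct.rid (D.AR₁ R) L.N).injective.comp
    (Module.Flat.lTensor_preserves_injective_linearMap _ J.subtype_injective)

theorem range_act {S M : Type u} [CommRing S] [AddCommGroup M] [Module S M] (I : Ideal S) :
    LinearMap.range ((TensorProduct.rid S M).toLinearMap ∘ₗ I.subtype.lTensor M) =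
      I • (⊤ : Submodule S M) := by
  refine le_antisymm ?_ (Submodule.smul_le.mpr fun a ha m _ => ⟨m ⊗ₜ ⟨a, ha⟩, by simp⟩)
  rintro _ ⟨z, rfl⟩
  induction z using TensorProduct.induction_on with
  | zero => simp
  | tmul m a =>
    have : (a : S) • m ∈ I • (⊤ : Submodule S M) :=
      Submodule.smul_mem_smul a.2 Submodule.mem_top
    simpa using this
  | add x y hx hy => rw [map_add]; exact add_mem hx hy

theorem range_mapP_act (J : Ideal (D.AR₁ R)) :
    LinearMap.range ((L.actJ J).baseChange (D.BR R)) =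
      J.map (algebraMap (D.AR₁ R) (D.BR R)) • (⊤ : Submodule (D.BR R) L.P) := by
  refine le_antisymm ?_ (Submodule.smul_le.mpr fun r hr v _ => ?_)
  · rintro _ ⟨z, rfl⟩
    induction z using TensorProduct.induction_on with
    | zero => rw [map_zero]; exact zero_mem _
    | tmul b w =>
      induction w using TensorProduct.induction_on with
      | zero => rw [TensorProduct.tmul_zero, map_zero]; exact zero_mem _
      | tmul n a =>
        rw [LinearMap.baseChange_tmul, actJ_tmul, TensorProduct.tmul_smul,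
          ← algebraMap_smul (D.BR R)]
        exact Submodule.smul_mem_smul (Ideal.mem_map_of_mem _ a.2) Submodule.mem_top
      | add x y hx hy => rw [TensorProduct.tmul_add, map_add]; exact add_mem hx hy
    | add x y hx hy => rw [map_add]; exact add_mem hx hy
  · induction hr using Submodule.span_induction with
    | mem r hr =>
      obtain ⟨a, ha, rfl⟩ := hr
      induction v using TensorProduct.induction_on with
      | zero => rw [smul_zero]; exact zero_mem _
      | tmul b n =>
        refine ⟨b ⊗ₜ (n ⊗ₜ ⟨a, ha⟩), ?_⟩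
        rw [LinearMap.baseChange_tmul, actJ_tmul, TensorProduct.tmul_smul,
          ← algebraMap_smul (D.BR R)]
      | add x y hx hy =>
        rw [smul_add]; exact add_mem (hx Submodule.mem_top) (hy Submodule.mem_top)
    | zero => rw [zero_smul]; exact zero_mem _
    | add a b _ _ ha hb => rw [add_smul]; exact add_mem ha hb
    | smul c a _ ha => rw [smul_eq_mul, mul_smul]; exact Submodule.smul_mem _ c ha

variable (I : Ideal (D.AR R)) (J : Ideal (D.AR₁ R)) [Module.Invertible (D.AR R) I]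
  [Module.Invertible (D.AR₁ R) J]
  (h : I.map (algebraMap (D.AR R) (D.BR R)) = J.map (algebraMap (D.AR₁ R) (D.BR R)))

theorem Rel.ideal_smul {L : LineData D R} {I : Ideal (D.AR R)} {J : Ideal (D.AR₁ R)}
    [Module.Invertible (D.AR R) I] [Module.Invertible (D.AR₁ R) J]
    {h : I.map (algebraMap (D.AR R) (D.BR R)) = J.map (algebraMap (D.AR₁ R) (D.BR R))}
    {i j : ℕ} {m : L.M} {n : L.N} (hm : L.Rel i m n) {a : I} {b : J}
    (hab : (ofIdeals I J h).Rel j a b) :
    L.Rel (i + j) ((a : D.AR R) • m) ((b : D.AR₁ R) • n) := by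
  rw [Nat.add_comm]
  exact hm.smul ((mul_comm _ _).trans (ofIdeals_rel.mp hab))

theorem act_rel : ∀ j z w, (L.tensor (ofIdeals I J h)).Rel j z w →
    L.Rel j (L.actI I z) (L.actJ J w) := by
  refine tensor_rel_of (φ := AlgHom.id k R) (K := L)
    (semiM (L := L.tensor (ofIdeals I J h)) (L' := L) (L.actI I))
    (semiN (L := L.tensor (ofIdeals I J h)) (L' := L) (L.actJ J)) ?_
  intro i j m n a b hm hab
  exact (congrArg₂ (L.Rel (i + j)) (L.actI_tmul I m a) (L.actJ_tmul J n b)).mpr (hm.ideal_smul hab)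

theorem fst_mapH0_mem (z : (L.tensor (ofIdeals I J h)).H0) :
    ((mapH0 (L.act_rel I J h) z : L.H0) : L.M × L.N).1 ∈ I • (⊤ : Submodule (D.AR R) L.M) :=
  (range_act (M := L.M) I).le ⟨z.1.1, rfl⟩

end Ring

section Field

variable {K : Type u} [Field K] [Algebra k K] (L : LineData D K)

theorem nonempty_equiv_P₁ {J : Ideal (D.AR₁ K)} {c : D.AR₁ K} (hc : c * D.yR K - 1 ∈ J) :
    Nonempty ((L.N ⧸ (J • (⊤ : Submodule (D.AR₁ K) L.N)).restrictScalars K) ≃ₗ[K]
      L.P ⧸ (J.map (algebraMap (D.AR₁ K) (D.BR K)) •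
        (⊤ : Submodule (D.BR K) L.P)).restrictScalars K) := by
  refine ⟨LinearEquiv.ofBijective (Submodule.mapQ
    ((J • (⊤ : Submodule (D.AR₁ K) L.N)).restrictScalars K)
    ((J.map (algebraMap (D.AR₁ K) (D.BR K)) • (⊤ : Submodule (D.BR K) L.P)).restrictScalars K)
    L.f₁ fun n hn => Submodule.mem_comap.mpr ((Submodule.restrictScalars_mem _ _ _).mpr
      (L.f₁_mem_smul ((Submodule.restrictScalars_mem _ _ _).mp hn)))) ⟨?_, ?_⟩⟩
  · rw [← LinearMap.ker_eq_bot, LinearMap.ker_eq_bot']
    intro v hv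
    obtain ⟨n, rfl⟩ := Submodule.Quotient.mk_surjective _ v
    rw [Submodule.mapQ_apply, Submodule.Quotient.mk_eq_zero] at hv
    rw [Submodule.Quotient.mk_eq_zero]
    obtain ⟨j, hj⟩ := exists_pow_smul_mem_of_mem_map_smul (D.yR K) L.f₁.toAddMonoidHom
      L.f₁_injective (fun a n => L.f₁_smul a n) (fun p => D.exists_tmul_of_mem₁ p) hv
    exact mem_smul_of_pow_smul hc hj
  · intro v
    obtain ⟨p, rfl⟩ := Submodule.Quotient.mk_surjective _ v
    obtain ⟨j, n, hn⟩ := D.exists_tmul_of_mem₁ p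
    refine ⟨Submodule.Quotient.mk (c ^ j • n), ?_⟩
    rw [Submodule.mapQ_apply, Submodule.Quotient.eq, Submodule.restrictScalars_mem, f₁_smul,
      f₁_apply, ← hn, smul_smul, ← map_pow, ← map_mul, ← mul_pow]
    have hmem : (c * D.yR K) ^ j - 1 ∈ J := by
      obtain ⟨q, hq⟩ := sub_one_dvd_pow_sub_one (c * D.yR K) j
      rw [hq]
      exact J.mul_mem_right q hc
    have := Submodule.smul_mem_smul (Ideal.mem_map_of_mem (algebraMap (D.AR₁ K) (D.BR K)) hmem)
      (Submodule.mem_top (R := D.BR K) (x := p))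
    rwa [map_sub, map_one, sub_smul, one_smul] at this

theorem nonempty_equiv_P₀ {I : Ideal (D.AR K)} {c : D.AR K} (hc : c * D.xR K - 1 ∈ I) :
    Nonempty ((L.M ⧸ (I • (⊤ : Submodule (D.AR K) L.M)).restrictScalars K) ≃ₗ[K]
      L.P ⧸ (I.map (algebraMap (D.AR K) (D.BR K)) •
        (⊤ : Submodule (D.BR K) L.P)).restrictScalars K) := by
  refine ⟨LinearEquiv.ofBijective (Submodule.mapQ
    ((I • (⊤ : Submodule (D.AR K) L.M)).restrictScalars K)
    ((I.map (algebraMap (D.AR K) (D.BR K)) • (⊤ : Submodule (D.BR K) L.P)).restrictScalars K)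
    L.f₀ fun m hm => Submodule.mem_comap.mpr ((Submodule.restrictScalars_mem _ _ _).mpr
      (L.f₀_mem_smul ((Submodule.restrictScalars_mem _ _ _).mp hm)))) ⟨?_, ?_⟩⟩
  · rw [← LinearMap.ker_eq_bot, LinearMap.ker_eq_bot']
    intro v hv
    obtain ⟨m, rfl⟩ := Submodule.Quotient.mk_surjective _ v
    rw [Submodule.mapQ_apply, Submodule.Quotient.mk_eq_zero] at hv
    rw [Submodule.Quotient.mk_eq_zero]
    obtain ⟨j, hj⟩ := exists_pow_smul_mem_of_mem_map_smul (D.xR K) L.f₀.toAddMonoidHom
      L.f₀_injective (fun a m => L.f₀_smul a m) (fun p => L.exists_pow_smul_mem_range_f₀ p) hv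
    exact mem_smul_of_pow_smul hc hj
  · intro v
    obtain ⟨p, rfl⟩ := Submodule.Quotient.mk_surjective _ v
    obtain ⟨j, m, hm⟩ := L.exists_pow_smul_mem_range_f₀ p
    refine ⟨Submodule.Quotient.mk (c ^ j • m), ?_⟩
    rw [Submodule.mapQ_apply, Submodule.Quotient.eq, Submodule.restrictScalars_mem, f₀_smul,
      ← hm, smul_smul, ← map_pow, ← map_mul, ← mul_pow]
    have hmem : (c * D.xR K) ^ j - 1 ∈ I := by
      obtain ⟨q, hq⟩ := sub_one_dvd_pow_sub_one (c * D.xR K) j
      rw [hq]
      exact I.mul_mem_right q hc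
    have := Submodule.smul_mem_smul (Ideal.mem_map_of_mem (algebraMap (D.AR K) (D.BR K)) hmem)
      (Submodule.mem_top (R := D.BR K) (x := p))
    rwa [map_sub, map_one, sub_smul, one_smul] at this

theorem subsingleton_quot_top_smul {S V : Type u} [CommRing S] [Algebra K S] [AddCommGroup V]
    [Module S V] [Module K V] [IsScalarTower K S V] :
    Subsingleton (V ⧸ ((⊤ : Ideal S) • (⊤ : Submodule S V)).restrictScalars K) := by
  rw [Submodule.top_smul, Submodule.restrictScalars_top]
  exact Submodule.Quotient.subsingleton_iff.mpr rfl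

variable (I : Ideal (D.AR K)) (J : Ideal (D.AR₁ K)) [Module.Invertible (D.AR K) I]
  [Module.Invertible (D.AR₁ K) J]
  (h : I.map (algebraMap (D.AR K) (D.BR K)) = J.map (algebraMap (D.AR₁ K) (D.BR K)))

theorem χ_tensor_ofIdeals
    [Module.Finite K (L.M ⧸ (I • (⊤ : Submodule (D.AR K) L.M)).restrictScalars K)]
    [Module.Finite K (L.N ⧸ (J • (⊤ : Submodule (D.AR₁ K) L.N)).restrictScalars K)]
    [Module.Finite K (L.P ⧸ (J.map (algebraMap (D.AR₁ K) (D.BR K)) •
      (⊤ : Submodule (D.BR K) L.P)).restrictScalars K)] :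
    L.χ = (L.tensor (ofIdeals I J h)).χ +
      finrank K (L.M ⧸ (I • (⊤ : Submodule (D.AR K) L.M)).restrictScalars K) +
      finrank K (L.N ⧸ (J • (⊤ : Submodule (D.AR₁ K) L.N)).restrictScalars K) -
      finrank K (L.P ⧸ (J.map (algebraMap (D.AR₁ K) (D.BR K)) •
        (⊤ : Submodule (D.BR K) L.P)).restrictScalars K) := by
  let gM : (L.tensor (ofIdeals I J h)).M →ₗ[D.AR K] L.M := L.actI I
  let gN : (L.tensor (ofIdeals I J h)).N →ₗ[D.AR₁ K] L.N := L.actJ J
  have hM : LinearMap.range (gM.restrictScalars K) =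
      (I • (⊤ : Submodule (D.AR K) L.M)).restrictScalars K := by
    rw [LinearMap.range_restrictScalars, ← range_act I]; rfl
  have hN : LinearMap.range (gN.restrictScalars K) =
      (J • (⊤ : Submodule (D.AR₁ K) L.N)).restrictScalars K := by
    rw [LinearMap.range_restrictScalars, ← range_act J]; rfl
  have hP : LinearMap.range ((mapP gN).restrictScalars K) =
      (J.map (algebraMap (D.AR₁ K) (D.BR K)) •
        (⊤ : Submodule (D.BR K) L.P)).restrictScalars K := by
    rw [LinearMap.range_restrictScalars, ← range_mapP_act]; rfl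
  have : Module.Finite K (L.M ⧸ LinearMap.range (gM.restrictScalars K)) := by
    rw [hM]; infer_instance
  have : Module.Finite K (L.N ⧸ LinearMap.range (gN.restrictScalars K)) := by
    rw [hN]; infer_instance
  have : Module.Finite K (L.P ⧸ LinearMap.range ((mapP gN).restrictScalars K)) := by
    rw [hP]; infer_instance
  have key := χ_eq_of_map (gM := gM) (gN := gN) (L.act_rel I J h) (L.actI_injective I)
    (L.actJ_injective J)
  rwa [hM, hN, hP] at key

/-- The degree of a subscheme of `C ∖ ε`. -/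
theorem χ_tensor_ofIdeals₀ [Module.Finite K (D.AR K ⧸ I)]
    (hIJ : ((∃ c, c * D.xR K - 1 ∈ I) ∧ ∃ c, c * D.yR K - 1 ∈ J) ∨ J = ⊤) :
    (L.tensor (ofIdeals I J h)).χ = L.χ - finrank K (D.AR K ⧸ I) := by
  have := finite_quot_smul (K := K) (M := L.M) I
  have hdim := finrank_quot_smul (K := K) (M := L.M) I
  rcases hIJ with ⟨⟨c, hc⟩, ⟨c', hc'⟩⟩ | rfl
  · obtain ⟨e₀⟩ := L.nonempty_equiv_P₀ hc
    obtain ⟨e₁⟩ := L.nonempty_equiv_P₁ hc'
    rw [h] at e₀
    have := Module.Finite.equiv e₀
    have := Module.Finite.equiv e₁.symm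
    have key := L.χ_tensor_ofIdeals I J h
    rw [e₁.finrank_eq, hdim] at key
    linarith
  · have := subsingleton_quot_top_smul (K := K) (S := D.AR₁ K) (V := L.N)
    have : Subsingleton (L.P ⧸ ((⊤ : Ideal (D.AR₁ K)).map (algebraMap (D.AR₁ K) (D.BR K)) •
        (⊤ : Submodule (D.BR K) L.P)).restrictScalars K) := by
      rw [Ideal.map_top]; exact subsingleton_quot_top_smul
    have key := L.χ_tensor_ofIdeals I ⊤ h
    rw [hdim, finrank_zero_of_subsingleton (R := K)
      (M := L.N ⧸ ((⊤ : Ideal (D.AR₁ K)) • (⊤ : Submodule (D.AR₁ K) L.N)).restrictScalars K),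
      finrank_zero_of_subsingleton (R := K)
      (M := L.P ⧸ ((⊤ : Ideal (D.AR₁ K)).map (algebraMap (D.AR₁ K) (D.BR K)) •
        (⊤ : Submodule (D.BR K) L.P)).restrictScalars K)] at key
    linarith

/-- The degree of a subscheme of the chart at `ε`. -/
theorem χ_tensor_ofIdeals₁ [Module.Finite K (D.AR₁ K ⧸ J)]
    (hIJ : ((∃ c, c * D.xR K - 1 ∈ I) ∧ ∃ c, c * D.yR K - 1 ∈ J) ∨ I = ⊤) :
    (L.tensor (ofIdeals I J h)).χ = L.χ - finrank K (D.AR₁ K ⧸ J) := by
  have := finite_quot_smul (K := K) (M := L.N) J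
  have hdim := finrank_quot_smul (K := K) (M := L.N) J
  rcases hIJ with ⟨⟨c, hc⟩, ⟨c', hc'⟩⟩ | rfl
  · obtain ⟨e₀⟩ := L.nonempty_equiv_P₀ hc
    obtain ⟨e₁⟩ := L.nonempty_equiv_P₁ hc'
    rw [h] at e₀
    have := Module.Finite.equiv e₁
    have := Module.Finite.equiv e₀.symm
    have key := L.χ_tensor_ofIdeals I J h
    rw [e₀.finrank_eq, hdim, ← e₁.finrank_eq, hdim] at key
    linarith
  · have := subsingleton_quot_top_smul (K := K) (S := D.AR K) (V := L.M)
    have : Subsingleton (L.P ⧸ (J.map (algebraMap (D.AR₁ K) (D.BR K)) •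
        (⊤ : Submodule (D.BR K) L.P)).restrictScalars K) := by
      rw [← h, Ideal.map_top]; exact subsingleton_quot_top_smul
    have key := L.χ_tensor_ofIdeals ⊤ J h
    rw [hdim, finrank_zero_of_subsingleton (R := K)
      (M := L.M ⧸ ((⊤ : Ideal (D.AR K)) • (⊤ : Submodule (D.AR K) L.M)).restrictScalars K),
      finrank_zero_of_subsingleton (R := K)
      (M := L.P ⧸ (J.map (algebraMap (D.AR₁ K) (D.BR K)) •
        (⊤ : Submodule (D.BR K) L.P)).restrictScalars K)] at key
    linarith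

theorem h0_tensor_ofIdeals_le : (L.tensor (ofIdeals I J h)).h0 ≤ L.h0 :=
  h0_le_of_map (L.act_rel I J h) (L.actI_injective I) (L.actJ_injective J)

theorem h0_tensor_ofIdeals_lt {z : L.M × L.N} (hz : z ∈ L.H0)
    (hzI : z.1 ∉ I • (⊤ : Submodule (D.AR K) L.M)) :
    (L.tensor (ofIdeals I J h)).h0 < L.h0 := by
  let g := mapH0 (L.act_rel I J h)
  have hne : LinearMap.range g ≠ ⊤ := fun htop => by
    obtain ⟨w, hw⟩ := (LinearMap.range_eq_top.mp htop) ⟨z, hz⟩
    refine hzI ?_
    have := L.fst_mapH0_mem I J h w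
    rw [show mapH0 (L.act_rel I J h) w = g w from rfl, hw] at this
    exact this
  calc (L.tensor (ofIdeals I J h)).h0 = finrank K (LinearMap.range g) :=
        (LinearMap.finrank_range_of_inj
          (mapH0_injective (L.act_rel I J h) (L.actI_injective I) (L.actJ_injective J))).symm
    _ < L.h0 := Submodule.finrank_lt hne

end Field

end Fermat.Agent.Jac.LineData
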