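import Fermat.Agent.Jac.Euler.Ideals
import Fermat.Agent.Jac.Alg.Pic

/-!
# Tensoring with the line data of a point; killing all sections by points
-/

set_option autoImplicit false

universe u

noncomputable section

open TensorProduct Module

namespace Fermat.Agent.Jac

variable {k : Type u} [Field k] {D : CurveData.{u} k}

theorem invertible_map_of_flat {S S' : Type u} [CommRing S] [CommRing S'] [Algebra S S']
    [Module.Flat S S'] (I : Ideal S) [Module.Invertible S I] :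
    Module.Invertible S' (I.map (algebraMap S S')) :=
  Module.Invertible.congr ((LinearEquiv.ofInjective (idealEmb S' I) (idealEmb_injective I)).trans
    (LinearEquiv.ofEq _ _ (range_idealEmb I)))

namespace CurveData

variable {K : Type u} [Field K] [Algebra k K]

theorem invertible_map_AR (ψ : k →ₐ[k] K) (I : Ideal (D.AR k)) [Module.Invertible (D.AR k) I] :
    Module.Invertible (D.AR K) (I.map (D.mapAR ψ).toRingHom) := by
  obtain rfl := Subsingleton.elim ψ (IsScalarTower.toAlgHom k k K)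
  let : Algebra (D.AR k) (D.AR K) := (D.mapAR (IsScalarTower.toAlgHom k k K)).toRingHom.toAlgebra
  have : IsScalarTower k (D.AR k) (D.AR K) :=
    IsScalarTower.of_algebraMap_eq fun r =>
      ((D.mapAR (IsScalarTower.toAlgHom k k K)).commutes r).symm
  have := CurveData.isPushout_AR (D := D) (R := k) (R' := K)
  have h := (Algebra.IsPushout.symm (R := k) (S := K) (R' := D.AR k) (S' := D.AR K) this).out
  have : Module.Flat (D.AR k) (D.AR K) :=
    Module.Flat.isBaseChange (R := k) (M := K) (S := D.AR k) (N := D.AR K) h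
  exact invertible_map_of_flat I

theorem invertible_map_AR₁ (ψ : k →ₐ[k] K) (J : Ideal (D.AR₁ k))
    [Module.Invertible (D.AR₁ k) J] :
    Module.Invertible (D.AR₁ K) (J.map (D.mapAR₁ ψ).toRingHom) := by
  obtain rfl := Subsingleton.elim ψ (IsScalarTower.toAlgHom k k K)
  let : Algebra (D.AR₁ k) (D.AR₁ K) :=
    (D.mapAR₁ (IsScalarTower.toAlgHom k k K)).toRingHom.toAlgebra
  have : IsScalarTower k (D.AR₁ k) (D.AR₁ K) :=
    IsScalarTower.of_algebraMap_eq fun r =>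
      ((D.mapAR₁ (IsScalarTower.toAlgHom k k K)).commutes r).symm
  have := CurveData.isPushout_AR₁ (D := D) (R := k) (R' := K)
  have h := (Algebra.IsPushout.symm (R := k) (S := K) (R' := D.AR₁ k) (S' := D.AR₁ K) this).out
  have : Module.Flat (D.AR₁ k) (D.AR₁ K) :=
    Module.Flat.isBaseChange (R := k) (M := K) (S := D.AR₁ k) (N := D.AR₁ K) h
  exact invertible_map_of_flat J

theorem map_ptKer₀ {R R' : Type u} [CommRing R] [Algebra k R] [CommRing R'] [Algebra k R']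
    (ψ : R →ₐ[k] R') (φ : D.A →ₐ[k] k) :
    (D.ptKer₀ R φ).map (D.mapAR ψ).toRingHom = D.ptKer₀ R' φ := by
  let ε := Algebra.TensorProduct.lift (AlgHom.id k R') ((Algebra.ofId k R').comp φ)
    (fun _ _ => Commute.all _ _)
  refine le_antisymm (Ideal.map_le_iff_le_comap.mpr fun z hz => ?_) fun z hz => ?_
  · rw [Ideal.mem_comap, ptKer₀, RingHom.mem_ker]
    have h : ∀ w : D.AR R, ε (D.mapAR ψ w) = ψ (Algebra.TensorProduct.lift (AlgHom.id k R)
        ((Algebra.ofId k R).comp φ) (fun _ _ => Commute.all _ _) w) := fun w => by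
      induction w using TensorProduct.induction_on with
      | zero => simp
      | tmul r a => simp [ε, mapAR]
      | add x y hx hy => simp only [map_add, hx, hy]
    exact (h z).trans (by rw [RingHom.mem_ker.mp hz, map_zero])
  · suffices ∀ w : D.AR R', w - ε w ⊗ₜ (1 : D.A) ∈ (D.ptKer₀ R φ).map (D.mapAR ψ).toRingHom by
      simpa [show ε z = 0 from hz] using this z
    intro w
    induction w using TensorProduct.induction_on with
    | zero => simp
    | tmul r a =>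
      have hw : (1 : R) ⊗ₜ[k] (a - φ a • 1) ∈ D.ptKer₀ R φ := by
        simp [ptKer₀, Algebra.smul_def]
      have h := Ideal.mul_mem_left _ (r ⊗ₜ[k] (1 : D.A))
        (Ideal.mem_map_of_mem (D.mapAR ψ).toRingHom hw)
      have h' : ε (r ⊗ₜ[k] a) ⊗ₜ[k] (1 : D.A) = r ⊗ₜ[k] (φ a • (1 : D.A)) := by
        rw [TensorProduct.tmul_smul, TensorProduct.smul_tmul']
        simp [ε, Algebra.smul_def, mul_comm]
      rw [h', ← TensorProduct.tmul_sub]
      simpa [mapAR] using h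
    | add x y hx hy =>
      rw [map_add, TensorProduct.add_tmul, add_sub_add_comm]
      exact add_mem hx hy

theorem map_ptKer₁ {R R' : Type u} [CommRing R] [Algebra k R] [CommRing R'] [Algebra k R']
    (ψ : R →ₐ[k] R') (φ : D.A₁ →ₐ[k] k) :
    (D.ptKer₁ R φ).map (D.mapAR₁ ψ).toRingHom = D.ptKer₁ R' φ := by
  let ε := Algebra.TensorProduct.lift (AlgHom.id k R') ((Algebra.ofId k R').comp φ)
    (fun _ _ => Commute.all _ _)
  refine le_antisymm (Ideal.map_le_iff_le_comap.mpr fun z hz => ?_) fun z hz => ?_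
  · rw [Ideal.mem_comap, ptKer₁, RingHom.mem_ker]
    have h : ∀ w : D.AR₁ R, ε (D.mapAR₁ ψ w) = ψ (Algebra.TensorProduct.lift (AlgHom.id k R)
        ((Algebra.ofId k R).comp φ) (fun _ _ => Commute.all _ _) w) := fun w => by
      induction w using TensorProduct.induction_on with
      | zero => simp
      | tmul r a => simp [ε, mapAR₁]
      | add x y hx hy => simp only [map_add, hx, hy]
    exact (h z).trans (by rw [RingHom.mem_ker.mp hz, map_zero])
  · suffices ∀ w : D.AR₁ R', w - ε w ⊗ₜ (1 : D.A₁) ∈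
        (D.ptKer₁ R φ).map (D.mapAR₁ ψ).toRingHom by
      simpa [show ε z = 0 from hz] using this z
    intro w
    induction w using TensorProduct.induction_on with
    | zero => simp
    | tmul r a =>
      have hw : (1 : R) ⊗ₜ[k] (a - φ a • 1) ∈ D.ptKer₁ R φ := by
        simp [ptKer₁, Algebra.smul_def]
      have h := Ideal.mul_mem_left _ (r ⊗ₜ[k] (1 : D.A₁))
        (Ideal.mem_map_of_mem (D.mapAR₁ ψ).toRingHom hw)
      have h' : ε (r ⊗ₜ[k] a) ⊗ₜ[k] (1 : D.A₁) = r ⊗ₜ[k] (φ a • (1 : D.A₁)) := by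
        rw [TensorProduct.tmul_smul, TensorProduct.smul_tmul']
        simp [ε, Algebra.smul_def, mul_comm]
      rw [h', ← TensorProduct.tmul_sub]
      simpa [mapAR₁] using h
    | add x y hx hy =>
      rw [map_add, TensorProduct.add_tmul, add_sub_add_comm]
      exact add_mem hx hy

theorem map_ptI₀_eq (ψ : k →ₐ[k] K) (φ : D.A →ₐ[k] k) :
    (D.ptI₀ φ).map (D.mapAR ψ).toRingHom = D.ptKer₀ K φ := by
  rw [ptI₀_eq, map_ptKer₀]

theorem map_ptJ₁_eq (ψ : k →ₐ[k] K) (φ : D.A₁ →ₐ[k] k) :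
    (D.ptJ₁ φ).map (D.mapAR₁ ψ).toRingHom = D.ptKer₁ K φ := by
  rw [ptJ₁_eq, map_ptKer₁]

end CurveData

namespace LineData

variable {K : Type u} [Field K] [Algebra k K]

/-- The colength one ideals of a point of `C ∖ ε`. -/
theorem point₀_cases (ψ : k →ₐ[k] K) (φ : D.A →ₐ[k] k) :
    ((∃ c, c * D.xR K - 1 ∈ (D.ptI₀ φ).map (D.mapAR ψ).toRingHom) ∧
      ∃ c, c * D.yR K - 1 ∈ (D.ptJ₀ φ).map (D.mapAR₁ ψ).toRingHom) ∨
      (D.ptJ₀ φ).map (D.mapAR₁ ψ).toRingHom = ⊤ := by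
  have hy := Ideal.mem_map_of_mem (D.mapAR₁ ψ).toRingHom (D.tmul_y_sub_one_mem φ)
  by_cases hx : φ D.x = 0
  · right
    rw [Ideal.eq_top_iff_one]
    simpa [hx] using hy
  · refine Or.inl ⟨⟨(algebraMap k K (φ D.x)⁻¹) ⊗ₜ 1, ?_⟩, ⟨ψ (φ D.x) ⊗ₜ 1, ?_⟩⟩
    · rw [CurveData.map_ptI₀_eq]
      simp [CurveData.ptKer₀, hx]
    · simpa [CurveData.mapAR₁, map_sub] using hy

/-- The colength one ideals of a point of the chart at `ε`. -/
theorem point₁_cases (ψ : k →ₐ[k] K) (φ : D.A₁ →ₐ[k] k) :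
    ((∃ c, c * D.xR K - 1 ∈ (D.ptI₁ φ).map (D.mapAR ψ).toRingHom) ∧
      ∃ c, c * D.yR K - 1 ∈ (D.ptJ₁ φ).map (D.mapAR₁ ψ).toRingHom) ∨
      (D.ptI₁ φ).map (D.mapAR ψ).toRingHom = ⊤ := by
  have hx := Ideal.mem_map_of_mem (D.mapAR ψ).toRingHom (D.tmul_x_sub_one_mem φ)
  by_cases hy : φ D.y = 0
  · right
    rw [Ideal.eq_top_iff_one]
    simpa [hy] using hx
  · refine Or.inl ⟨⟨ψ (φ D.y) ⊗ₜ 1, ?_⟩, ⟨(algebraMap k K (φ D.y)⁻¹) ⊗ₜ 1, ?_⟩⟩
    · simpa [CurveData.mapAR, map_sub] using hx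
    · rw [CurveData.map_ptJ₁_eq]
      simp [CurveData.ptKer₁, hy]

theorem χ_tensor_point₀ {ψ : k →ₐ[k] K} {φ : D.A →ₐ[k] k} {P : LineData D K}
    (p : Pullback ψ (D.pointData₀ φ) P) (L : LineData D K) : (L.tensor P).χ = L.χ - 1 := by
  have := CurveData.invertible_map_AR ψ (D.ptI₀ φ)
  have := CurveData.invertible_map_AR₁ ψ (D.ptJ₀ φ)
  obtain ⟨e⟩ := p.nonempty_iso (pullbackIdeals (D.map_ptI₀ φ)
    (D.map_eq_of_map ψ (D.map_ptI₀ φ)) rfl rfl)
  let ε : D.AR K →ₐ[K] K := Algebra.TensorProduct.lift (AlgHom.id K K)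
    ((Algebra.ofId k K).comp φ) fun _ _ => Commute.all _ _
  have hker : (D.ptI₀ φ).map (D.mapAR ψ).toRingHom = RingHom.ker ε :=
    CurveData.map_ptI₀_eq ψ φ
  have hfin : Module.Finite K (D.AR K ⧸ (D.ptI₀ φ).map (D.mapAR ψ).toRingHom) := by
    rw [hker]; exact finite_quot_ker ε
  rw [(tensorCongr (Iso.refl L) e).χ_eq,
    χ_tensor_ofIdeals₀ L _ _ _ (point₀_cases ψ φ), hker, finrank_quot_ker, Nat.cast_one]

theorem χ_tensor_point₁ {ψ : k →ₐ[k] K} {φ : D.A₁ →ₐ[k] k} {P : LineData D K}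
    (p : Pullback ψ (D.pointData₁ φ) P) (L : LineData D K) : (L.tensor P).χ = L.χ - 1 := by
  have := CurveData.invertible_map_AR ψ (D.ptI₁ φ)
  have := CurveData.invertible_map_AR₁ ψ (D.ptJ₁ φ)
  obtain ⟨e⟩ := p.nonempty_iso (pullbackIdeals (D.map_ptI₁ φ)
    (D.map_eq_of_map ψ (D.map_ptI₁ φ)) rfl rfl)
  let ε : D.AR₁ K →ₐ[K] K := Algebra.TensorProduct.lift (AlgHom.id K K)
    ((Algebra.ofId k K).comp φ) fun _ _ => Commute.all _ _
  have hker : (D.ptJ₁ φ).map (D.mapAR₁ ψ).toRingHom = RingHom.ker ε :=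
    CurveData.map_ptJ₁_eq ψ φ
  have hfin : Module.Finite K (D.AR₁ K ⧸ (D.ptJ₁ φ).map (D.mapAR₁ ψ).toRingHom) := by
    rw [hker]; exact finite_quot_ker ε
  rw [(tensorCongr (Iso.refl L) e).χ_eq,
    χ_tensor_ofIdeals₁ L _ _ _ (point₁_cases ψ φ), hker, finrank_quot_ker, Nat.cast_one]

theorem h0_tensor_point₀_le {ψ : k →ₐ[k] K} {φ : D.A →ₐ[k] k} {P : LineData D K}
    (p : Pullback ψ (D.pointData₀ φ) P) (L : LineData D K) : (L.tensor P).h0 ≤ L.h0 := by
  have := CurveData.invertible_map_AR ψ (D.ptI₀ φ)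
  have := CurveData.invertible_map_AR₁ ψ (D.ptJ₀ φ)
  obtain ⟨e⟩ := p.nonempty_iso (pullbackIdeals (D.map_ptI₀ φ)
    (D.map_eq_of_map ψ (D.map_ptI₀ φ)) rfl rfl)
  rw [(tensorCongr (Iso.refl L) e).h0_eq]
  exact L.h0_tensor_ofIdeals_le _ _ _

theorem h0_tensor_point₀_lt {ψ : k →ₐ[k] K} {φ : D.A →ₐ[k] k} {P : LineData D K}
    (p : Pullback ψ (D.pointData₀ φ) P) (L : LineData D K) {z : L.M × L.N} (hz : z ∈ L.H0)
    (hzI : z.1 ∉ D.ptKer₀ K φ • (⊤ : Submodule (D.AR K) L.M)) :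
    (L.tensor P).h0 < L.h0 := by
  have := CurveData.invertible_map_AR ψ (D.ptI₀ φ)
  have := CurveData.invertible_map_AR₁ ψ (D.ptJ₀ φ)
  obtain ⟨e⟩ := p.nonempty_iso (pullbackIdeals (D.map_ptI₀ φ)
    (D.map_eq_of_map ψ (D.map_ptI₀ φ)) rfl rfl)
  rw [(tensorCongr (Iso.refl L) e).h0_eq]
  exact L.h0_tensor_ofIdeals_lt _ _ _ hz (by rwa [CurveData.map_ptI₀_eq])

/-- Twisting down by suitable points kills all sections when `H1 = 0`. -/
theorem exists_points_bijective [IsAlgClosed k] (ψ : k →ₐ[k] K) (L : LineData D K)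
    (hs : Function.Surjective L.δ) :
    ∃ l : List (D.B →ₐ[k] k), l.length = L.h0 ∧ ∃ L' : LineData D K, Function.Bijective L'.δ ∧
      LinePic.mk L' = LinePic.map ψ
        (l.map fun φ => LinePic.mk (D.pointData₀ (φ.comp D.i₀))).prod * LinePic.mk L := by
  induction hn : L.h0 using Nat.strong_induction_on generalizing L with
  | _ n ih =>
    rcases Nat.eq_zero_or_pos n with rfl | hpos
    · exact ⟨[], rfl, L, ⟨L.h0_eq_zero_iff.mp hn, hs⟩, by simp⟩
    · obtain ⟨z, hz, hz0⟩ : ∃ z ∈ L.H0, z ≠ 0 := by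
        refine Submodule.exists_mem_ne_zero_of_ne_bot fun hbot => ?_
        rw [h0, hbot, finrank_bot] at hn
        omega
      obtain ⟨φ, hφ⟩ := L.exists_point_notMem hz hz0
      obtain ⟨P, ⟨p⟩⟩ := exists_pullback ψ (D.pointData₀ (φ.comp D.i₀))
      have hlt := h0_tensor_point₀_lt p L hz hφ
      have hχ := χ_tensor_point₀ p L
      rw [L.χ_eq_h0 hs, χ, hn] at hχ
      rw [hn] at hlt
      have hh : (L.tensor P).h1 = 0 ∧ (L.tensor P).h0 + 1 = n := by omega
      obtain ⟨l, hl, L', hL', heq⟩ :=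
        ih _ hlt (L.tensor P) ((h1_eq_zero_iff _).mp hh.1) rfl
      refine ⟨φ :: l, by rw [List.length_cons, hl, hh.2], L', hL', ?_⟩
      rw [heq, List.map_cons, List.prod_cons, map_mul, LinePic.map_mk p, ← LinePic.mk_mul]
      ac_rfl

end LineData

end Fermat.Agent.Jac
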